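/-
Programme T1B (row 38 via S44), brick `LOCAL44-ASM` / J-BRIDGE (helper66): THE SHARED LOCAL BASE.

Fixed: a prime `p`, the canonical place `A = padicPlace p` of `ℚ̄`, `ι = padicEmbedding p : ℚ̄ → ℚ̄_p`,
a number field `K ⊂ ℚ̄` (in the application: an INERTIAL field containing `ζ_{M'}`), `W = A ∩ K`
(`Wb p K = ↥(AK (padicPlace p) K)`, the base ring of the nodal two-chart datum `c0`).

THE FINITE LEVELS of the local geometry are the fields `E : IntermediateField ℚ_[p] (Kbar p)`
with `IsLevel p K E` (`ι K ⊆ E`), finite over `ℚ_p`, and their rings of integers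
`O_E = intSubring p E ⊂ ℚ̄_p` (complete DVRs).  This file provides the ring homomorphisms
`W → O_E → E → ℚ̄_p`, `O_E → O_{E'}`, `E → E'` (`E ≤ E'`) and the `W`-algebra structures
(as reducible definitions, NOT instances: use `letI`), the scalar towers, the action of the local
Galois group on normal levels, and the fact that the INERTIA group fixes `ι W` pointwise when `K` is
fixed by the inertia group of `A` (so inertia acts `W`-linearly on everything).
-/
import Mathlib
import Fermat.Agent.T1.HubInst98.Incl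
import Fermat.Agent.T1.IntSub47
import Fermat.Agent.T1.LocModel46.Basic
import Fermat.Agent.ES.P36.InertField27
import Fermat.Agent.T1B.Plumb66.Inertia

set_option autoImplicit false
set_option linter.unusedSectionVars false
set_option linter.style.haveILetI false

open Fermat.Agent.TW.B5.Iface Fermat.Agent.RED.Interface4 Fermat.Agent.T1.HubInst98
open Fermat.Agent.T1.LocModel46 Fermat.Agent.T1.IntSub47

noncomputable section

namespace Fermat.Agent.T1B.Local66.LocalBase

variable (p : ℕ) [Fact p.Prime] (K : IntermediateField ℚ Qbar)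

/-- `W = A ∩ K`, `A = padicPlace p`. -/
abbrev Wb : Type := ↥(AK (padicPlace p) K)

/-- `ι` on `K`. -/
def iotaK : ↥K →+* Kbar p := ((padicEmbedding p : Qbar →ₐ[ℚ] Kbar p) : Qbar →+* Kbar p).comp (jL K)

@[simp] theorem iotaK_apply (x : K) : iotaK p K x = padicEmbedding p (x : Qbar) := rfl

theorem iotaK_injective : Function.Injective (iotaK p K) :=
  (iotaK p K).injective

/-- `ι` on `W`. -/
def iotaW : Wb p K →+* Kbar p := (iotaK p K).comp (algebraMap (Wb p K) ↥K)

@[simp] theorem iotaW_apply (w : Wb p K) : iotaW p K w = padicEmbedding p (((w : ↥K)) : Qbar) := rfl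

theorem iotaW_injective : Function.Injective (iotaW p K) :=
  (iotaK_injective p K).comp Subtype.val_injective

theorem norm_iotaW_le_one (w : Wb p K) : ‖iotaW p K w‖ ≤ 1 :=
  (norm_iota_jL_le_one_iff p (w : ↥K)).2 w.2

/-! ### Levels -/

/-- `E ⊇ ι K`. -/
def IsLevel (E : IntermediateField ℚ_[p] (Kbar p)) : Prop := ∀ x : K, iotaK p K x ∈ E

variable {p K}

theorem IsLevel.mono {E E' : IntermediateField ℚ_[p] (Kbar p)} (h : IsLevel p K E) (hE : E ≤ E') :
    IsLevel p K E' := fun x => hE (h x)

variable (p K)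

/-- Levels exist (`K` a number field). -/
theorem exists_isLevel [FiniteDimensional ℚ K] :
    ∃ E : IntermediateField ℚ_[p] (Kbar p), FiniteDimensional ℚ_[p] E ∧ IsLevel p K E :=
  exists_finite_field p K

variable {p K}
variable {E E' : IntermediateField ℚ_[p] (Kbar p)}

/-- `K → E`. -/
def toE (h : IsLevel p K E) : ↥K →+* ↥E := (iotaK p K).codRestrict E.toSubring h

@[simp] theorem coe_toE (h : IsLevel p K E) (x : K) : ((toE h x : ↥E) : Kbar p) = iotaK p K x := rfl

/-- `W → O_E`. -/
def toO (h : IsLevel p K E) : Wb p K →+* ↥(intSubring p E) :=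
  (iotaW p K).codRestrict (intSubring p E) fun w => ⟨h (w : ↥K), norm_iotaW_le_one p K w⟩

@[simp] theorem coe_toO (h : IsLevel p K E) (w : Wb p K) :
    ((toO h w : ↥(intSubring p E)) : Kbar p) = iotaW p K w := rfl

/-- `O_E → E`. -/
def oToE (E : IntermediateField ℚ_[p] (Kbar p)) : ↥(intSubring p E) →+* ↥E :=
  (intSubring p E).subtype.codRestrict E.toSubring fun x => x.2.1

@[simp] theorem coe_oToE (x : ↥(intSubring p E)) : ((oToE E x : ↥E) : Kbar p) = (x : Kbar p) := rfl

theorem oToE_injective : Function.Injective (oToE E) := fun _ _ h =>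
  Subtype.ext (congrArg (fun z : ↥E => (z : Kbar p)) h)

/-- `E → E'`. -/
def eIncl (hE : E ≤ E') : ↥E →+* ↥E' := (IntermediateField.inclusion hE : ↥E →+* ↥E')

@[simp] theorem coe_eIncl (hE : E ≤ E') (x : ↥E) : ((eIncl hE x : ↥E') : Kbar p) = (x : Kbar p) := rfl

/-! ### The algebra structures (reducible definitions, not instances) -/

/-- `Kbar p` as a `W`-algebra. -/
abbrev algWKbar (p : ℕ) [Fact p.Prime] (K : IntermediateField ℚ Qbar) : Algebra (Wb p K) (Kbar p) :=
  (iotaW p K).toAlgebra

/-- `O_E` as a `W`-algebra. -/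
abbrev algWO (h : IsLevel p K E) : Algebra (Wb p K) ↥(intSubring p E) := (toO h).toAlgebra

/-- `E` as a `W`-algebra. -/
abbrev algWE (h : IsLevel p K E) : Algebra (Wb p K) ↥E :=
  ((toE h).comp (algebraMap (Wb p K) ↥K)).toAlgebra

/-- `E` as an `O_E`-algebra. -/
abbrev algOE (E : IntermediateField ℚ_[p] (Kbar p)) : Algebra ↥(intSubring p E) ↥E :=
  (oToE E).toAlgebra

/-- `Kbar p` as an `O_E`-algebra: MATHLIB's instance (`Algebra.ofSubring`); the name is kept for
uniformity, `letI := algOKbar E` is harmless. -/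
abbrev algOKbar (E : IntermediateField ℚ_[p] (Kbar p)) : Algebra ↥(intSubring p E) (Kbar p) :=
  inferInstance

/-- `Kbar p` as an `E`-algebra: MATHLIB's instance for intermediate fields; the name is kept for
uniformity, `letI := algEKbar E` is harmless. -/
abbrev algEKbar (E : IntermediateField ℚ_[p] (Kbar p)) : Algebra ↥E (Kbar p) :=
  inferInstance

theorem algebraMap_O_Kbar (E : IntermediateField ℚ_[p] (Kbar p)) (x : ↥(intSubring p E)) :
    algebraMap ↥(intSubring p E) (Kbar p) x = (x : Kbar p) := rfl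

theorem algebraMap_E_Kbar (E : IntermediateField ℚ_[p] (Kbar p)) (x : ↥E) :
    algebraMap ↥E (Kbar p) x = (x : Kbar p) := rfl

/-- `O_{E'}` as an `O_E`-algebra. -/
abbrev algOO (hE : E ≤ E') : Algebra ↥(intSubring p E) ↥(intSubring p E') := algOfLe p hE

/-- `E'` as an `E`-algebra. -/
abbrev algEE (hE : E ≤ E') : Algebra ↥E ↥E' := (eIncl hE).toAlgebra

/-! ### Towers -/

theorem tower_W_O_E (h : IsLevel p K E) :
    letI := algWO h
    letI := algWE h
    letI := algOE E
    IsScalarTower (Wb p K) ↥(intSubring p E) ↥E := by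
  letI := algWO h
  letI := algWE h
  letI := algOE E
  exact IsScalarTower.of_algebraMap_eq' rfl

theorem tower_W_O_Kbar (h : IsLevel p K E) :
    letI := algWO h
    letI := algWKbar p K
    letI := algOKbar E
    IsScalarTower (Wb p K) ↥(intSubring p E) (Kbar p) := by
  letI := algWO h
  letI := algWKbar p K
  letI := algOKbar E
  exact IsScalarTower.of_algebraMap_eq' rfl

theorem tower_W_E_Kbar (h : IsLevel p K E) :
    letI := algWE h
    letI := algWKbar p K
    letI := algEKbar E
    IsScalarTower (Wb p K) ↥E (Kbar p) := by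
  letI := algWE h
  letI := algWKbar p K
  letI := algEKbar E
  exact IsScalarTower.of_algebraMap_eq' rfl

theorem tower_O_E_Kbar (E : IntermediateField ℚ_[p] (Kbar p)) :
    letI := algOE E
    letI := algOKbar E
    letI := algEKbar E
    IsScalarTower ↥(intSubring p E) ↥E (Kbar p) := by
  letI := algOE E
  letI := algOKbar E
  letI := algEKbar E
  exact IsScalarTower.of_algebraMap_eq' rfl

theorem tower_W_O_O (h : IsLevel p K E) (hE : E ≤ E') :
    letI := algWO h
    letI := algWO (h.mono hE)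
    letI := algOO hE
    IsScalarTower (Wb p K) ↥(intSubring p E) ↥(intSubring p E') := by
  letI := algWO h
  letI := algWO (h.mono hE)
  letI := algOO hE
  exact IsScalarTower.of_algebraMap_eq' rfl

theorem tower_W_E_E (h : IsLevel p K E) (hE : E ≤ E') :
    letI := algWE h
    letI := algWE (h.mono hE)
    letI := algEE hE
    IsScalarTower (Wb p K) ↥E ↥E' := by
  letI := algWE h
  letI := algWE (h.mono hE)
  letI := algEE hE
  exact IsScalarTower.of_algebraMap_eq' rfl

theorem tower_O_O_Kbar (hE : E ≤ E') :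
    letI := algOO hE
    letI := algOKbar E
    letI := algOKbar E'
    IsScalarTower ↥(intSubring p E) ↥(intSubring p E') (Kbar p) := by
  letI := algOO hE
  letI := algOKbar E
  letI := algOKbar E'
  exact IsScalarTower.of_algebraMap_eq' rfl

theorem tower_E_E_Kbar (hE : E ≤ E') :
    letI := algEE hE
    letI := algEKbar E
    letI := algEKbar E'
    IsScalarTower ↥E ↥E' (Kbar p) := by
  letI := algEE hE
  letI := algEKbar E
  letI := algEKbar E'
  exact IsScalarTower.of_algebraMap_eq' rfl

/-! ### `O_E` is a DVR with fraction field `E` -/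

section DVR

variable (E) [FiniteDimensional ℚ_[p] E]

instance : IsDomain ↥(intSubring p E) := inferInstance

/-- `O_E` is a discrete valuation ring. -/
theorem isDVR_O : IsDiscreteValuationRing ↥(intSubring p E) :=
  IsDiscreteValuationRing.RingEquivClass.isDiscreteValuationRing (intEquiv p E).symm

/-- Every element of `E` becomes integral after multiplication by a power of `p`. -/
theorem exists_pow_mul_mem (x : ↥E) : ∃ n : ℕ, ‖(p : Kbar p) ^ n * (x : Kbar p)‖ ≤ 1 := by
  have h1 := norm_p_lt_one p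
  obtain ⟨n, hn⟩ : ∃ n : ℕ, ‖(p : Kbar p)‖ ^ n * ‖(x : Kbar p)‖ < 1 := by
    by_cases hx : ‖(x : Kbar p)‖ = 0
    · exact ⟨0, by rw [hx, mul_zero]; exact zero_lt_one⟩
    · have hpos : 0 < ‖(x : Kbar p)‖ := lt_of_le_of_ne (norm_nonneg _) (Ne.symm hx)
      obtain ⟨n, hn⟩ := exists_pow_lt_of_lt_one (inv_pos.2 hpos) h1
      refine ⟨n, ?_⟩
      calc ‖(p : Kbar p)‖ ^ n * ‖(x : Kbar p)‖ < ‖(x : Kbar p)‖⁻¹ * ‖(x : Kbar p)‖ :=
            mul_lt_mul_of_pos_right hn hpos
        _ = 1 := inv_mul_cancel₀ hx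
  exact ⟨n, by rw [norm_mul, norm_pow]; exact hn.le⟩

/-- `E = Frac O_E`. -/
theorem isFractionRing_O_E :
    letI := algOE E
    IsFractionRing ↥(intSubring p E) ↥E := by
  letI := algOE E
  have hinj : Function.Injective (algebraMap ↥(intSubring p E) ↥E) := oToE_injective
  refine ⟨⟨fun y => ?_, fun z => ?_, fun {x y} h => ⟨1, by rw [hinj h]⟩⟩⟩
  · have hy : (y : ↥(intSubring p E)) ≠ 0 := nonZeroDivisors.ne_zero y.2
    exact IsUnit.mk0 _ (fun h => hy (hinj (by rw [h, map_zero])))
  · obtain ⟨n, hn⟩ := exists_pow_mul_mem E z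
    have hpE : (p : Kbar p) ∈ E := by
      have : ((p : ℚ_[p]) : Kbar p) = (p : Kbar p) := map_natCast (algebraMap ℚ_[p] (Kbar p)) p
      rw [← this]
      exact E.algebraMap_mem _
    have hpO : (p : Kbar p) ∈ intSubring p E := ⟨hpE, (norm_p_lt_one p).le⟩
    have hp0 : (⟨(p : Kbar p), hpO⟩ : ↥(intSubring p E)) ≠ 0 := by
      intro h
      have h' := congrArg (fun z : ↥(intSubring p E) => (z : Kbar p)) h
      exact (norm_p_pos p).ne' (by simpa using congrArg norm h')
    refine ⟨(⟨(p : Kbar p) ^ n * (z : Kbar p), ⟨E.mul_mem (pow_mem hpE n) z.2, hn⟩⟩,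
      ⟨⟨(p : Kbar p), hpO⟩ ^ n, mem_nonZeroDivisors_of_ne_zero (pow_ne_zero n hp0)⟩), ?_⟩
    apply Subtype.ext
    show (z : Kbar p) * (p : Kbar p) ^ n = (p : Kbar p) ^ n * (z : Kbar p)
    exact mul_comm _ _

end DVR

/-! ### The Galois action on normal levels; inertia is `W`-linear -/

/-- `E` is stable under the local Galois group (`E / ℚ_p` normal). -/
def IsNormalLevel (E : IntermediateField ℚ_[p] (Kbar p)) : Prop := ∀ τ : Gp p, ∀ y ∈ E, τ y ∈ E

/-- `τ` on a normal level `E`. -/
def galE (hN : IsNormalLevel E) (τ : Gp p) : ↥E →+* ↥E :=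
  ((τ : Kbar p →+* Kbar p).comp (E.val : ↥E →+* Kbar p)).codRestrict E.toSubring
    fun y => hN τ y y.2

@[simp] theorem coe_galE (hN : IsNormalLevel E) (τ : Gp p) (y : ↥E) :
    ((galE hN τ y : ↥E) : Kbar p) = τ (y : Kbar p) := rfl

/-- `τ` on `O_E`, `E` a normal level. -/
def galO (hN : IsNormalLevel E) (τ : Gp p) : ↥(intSubring p E) →+* ↥(intSubring p E) :=
  ((τ : Kbar p →+* Kbar p).comp (intSubring p E).subtype).codRestrict (intSubring p E)
    fun y => ⟨hN τ y y.2.1, by
      show ‖τ (y : Kbar p)‖ ≤ 1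
      rw [norm_gal]; exact y.2.2⟩

@[simp] theorem coe_galO (hN : IsNormalLevel E) (τ : Gp p) (y : ↥(intSubring p E)) :
    ((galO hN τ y : ↥(intSubring p E)) : Kbar p) = τ (y : Kbar p) := rfl

theorem galE_one (hN : IsNormalLevel E) (y : ↥E) : galE hN 1 y = y := Subtype.ext rfl

theorem galE_mul (hN : IsNormalLevel E) (σ τ : Gp p) (y : ↥E) :
    galE hN (σ * τ) y = galE hN σ (galE hN τ y) := Subtype.ext rfl

theorem galO_one (hN : IsNormalLevel E) (y : ↥(intSubring p E)) : galO hN 1 y = y :=
  Subtype.ext rfl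

theorem galO_mul (hN : IsNormalLevel E) (σ τ : Gp p) (y : ↥(intSubring p E)) :
    galO hN (σ * τ) y = galO hN σ (galO hN τ y) := Subtype.ext rfl

theorem oToE_galO (hN : IsNormalLevel E) (τ : Gp p) (y : ↥(intSubring p E)) :
    oToE E (galO hN τ y) = galE hN τ (oToE E y) := Subtype.ext rfl

variable (p K)

/-- **Inertia fixes `ι W` pointwise** when the inertia group of `A` fixes `K` pointwise. -/
theorem inertia_iotaK (hK : Fermat.Agent.ES.P36.InertField27.InertFixed (padicPlace p) K)
    (τ : ↥(Fermat.Agent.T1B.Plumb66.Inertia.Ip p)) (x : K) :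
    (τ : Gp p) (iotaK p K x) = iotaK p K x := by
  have h1 : localGaloisToGlobal p (τ : Gp p) ∈ (padicPlace p).inertiaSubgroupIn ℚ := τ.2
  have h2 := hK _ h1 (x : Qbar) x.2
  rw [iotaK_apply, ← iota_res, h2]

theorem inertia_iotaW (hK : Fermat.Agent.ES.P36.InertField27.InertFixed (padicPlace p) K)
    (τ : ↥(Fermat.Agent.T1B.Plumb66.Inertia.Ip p)) (w : Wb p K) :
    (τ : Gp p) (iotaW p K w) = iotaW p K w :=
  inertia_iotaK p K hK τ (w : ↥K)

variable {p K}

/-- Inertia acts `W`-linearly on `O_E`. -/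
theorem galO_toO (hK : Fermat.Agent.ES.P36.InertField27.InertFixed (padicPlace p) K)
    (h : IsLevel p K E) (hN : IsNormalLevel E)
    (τ : ↥(Fermat.Agent.T1B.Plumb66.Inertia.Ip p)) (w : Wb p K) :
    galO hN (τ : Gp p) (toO h w) = toO h w :=
  Subtype.ext (inertia_iotaW p K hK τ w)

/-- Inertia acts `W`-linearly on `E`. -/
theorem galE_toE (hK : Fermat.Agent.ES.P36.InertField27.InertFixed (padicPlace p) K)
    (h : IsLevel p K E) (hN : IsNormalLevel E)
    (τ : ↥(Fermat.Agent.T1B.Plumb66.Inertia.Ip p)) (x : K) :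
    galE hN (τ : Gp p) (toE h x) = toE h x :=
  Subtype.ext (inertia_iotaK p K hK τ x)

end Fermat.Agent.T1B.Local66.LocalBase
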