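/-
Programme T1B (row 38 via S44), brick `LOCAL44-ASM` / GLUE (helper66): THE DIRECTED SYSTEM OF LEVELS
AND UNIONS OF SUBGROUPS OF `A = Pic X_{ℚ̄_p}`.

`c0 : TwoChart W B0 B1 B01` any two-chart datum over `W = Wb p K` (the nodal hub).

* `NLevel p K`  (v2, INDEXED BY NUMBER FIELDS): a level is a number field `L ⊇ K`, finite and NORMAL
  over `ℚ` (fields `L, finL, norL, leL`); its `p`-adic field is the FIELD `E.E` with
  `E.hE : E.E = localField p E.L` (`= ℚ_p(ι L)`; a field, not a definition, so that `rfl`-proofs never unfold it)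
  (`NLevel.fin, NLevel.lev : IsLevel p K E.E, NLevel.levL : IsLevel p E.L E.E, NLevel.nor`), so `ι L` is
  dense in `E.E`.  ORDER: `E ≤ E' ↔ E.L ≤ E'.L` (`NLevel.le_def`), which implies `E.E ≤ E'.E`
  (`NLevel.E_le`).  A directed preorder (`NLevel.sup`); `NLevel.ofField`, `NLevel.exists_ge_field`;
  every finite set of elements of `ℚ̄_p` lies in some `E.E` (`NLevel.exists_ge_adjoin`,
  `NLevel.exists_mem`: Krasner).
* `Atop p K c0 = Additive (Pic X_{ℚ̄_p})`; `bcO E : Pic X_{O_E} →* Pic X_{ℚ̄_p}`, `bcE E`,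
  `bcOO hE : Pic X_{O_E} →* Pic X_{O_E'}`, `bcOE E : Pic X_{O_E} →* Pic X_E` and their compatibilities
  (`bcO_bcOO`, `bcE_bcOE`).
* `unionSub P hP : AddSubgroup (Atop p K c0)` for a family of subgroups `P E ≤ Pic X_{O_E}` compatible
  with base change (`hP : x ∈ P E → bcOO hE x ∈ P E'`), with
  `mem_unionSub : y ∈ unionSub P hP ↔ ∃ E, ∃ x ∈ P E, bcO E x = y`  (ONE level suffices: directedness).
  This is how `J0` (`P = P00`), `J1` (`P = P00 ⊓ J̃¹`) of `Local66.Assembly.LocalGeom` are defined.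
-/
import Mathlib
import Fermat.Agent.T1.RedIface75
import Fermat.Agent.T1.Red11.MapComp
import Fermat.Agent.T1B.Local66.LocalBase
import Fermat.Agent.T1.HubInst98.Galois
import Fermat.Agent.PT.BR.LocInj13

set_option autoImplicit false
set_option linter.unusedSectionVars false
set_option linter.style.haveILetI false
set_option synthInstance.maxHeartbeats 400000
set_option maxHeartbeats 1000000

open Fermat.Agent.TW.B5.Iface Fermat.Agent.RED.Interface4 Fermat.Agent.T1.HubInst98
open Fermat.Agent.T1.IntSub47 Fermat.Agent.Jac Fermat.Agent.T1.RedIface75 Fermat.Agent.T1.Red11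

noncomputable section

namespace Fermat.Agent.T1B.Local66.Union

open Fermat.Agent.T1B.Local66.LocalBase

variable (p : ℕ) [Fact p.Prime] (K : IntermediateField ℚ Qbar)

/-! ### Normal levels (v2: indexed by NUMBER FIELDS) -/

/-- A normal finite level (v2, helper53's design flag): a number field `L ⊇ K`, finite and NORMAL
over `ℚ`; the level is `E = E_L := ℚ_p(ι L) = localField p L` (so `ι L` is dense in `E`, `E / ℚ_p`
is finite and stable under `G_p`; every finite set of elements of `ℚ̄_p` lies in some `E_L`: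
Krasner).  The ORDER is `L ≤ L'` (it implies `E_L ≤ E_L'`: `NLevel.E_le`). -/
structure NLevel where
  L : IntermediateField ℚ Qbar
  finL : FiniteDimensional ℚ L
  norL : Normal ℚ L
  leL : K ≤ L
  /-- the `p`-adic field `E_L = ℚ_p(ι L)`; a FIELD of the structure (with `hE`), not a definition,
  so that nothing ever unfolds it -/
  E : IntermediateField ℚ_[p] (Kbar p)
  hE : E = Fermat.Agent.PT.BR.LocInj13.localField p L

attribute [instance] NLevel.finL NLevel.norL

variable {p K}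

instance NLevel.fin (E : NLevel p K) : FiniteDimensional ℚ_[p] E.E := by
  rw [E.hE]
  exact Fermat.Agent.PT.BR.LocInj13.finiteDimensional_localField p E.L

/-- `ι L ⊆ E_L`. -/
theorem NLevel.levL (E : NLevel p K) : IsLevel p E.L E.E := fun x => by
  rw [E.hE]
  exact Fermat.Agent.PT.BR.LocInj13.padicEmbedding_mem_localField p x.2

/-- `ι K ⊆ E_L`. -/
theorem NLevel.lev (E : NLevel p K) : IsLevel p K E.E := fun x => by
  rw [E.hE]
  exact Fermat.Agent.PT.BR.LocInj13.padicEmbedding_mem_localField p (E.leL x.2)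

instance : LE (NLevel p K) := ⟨fun E E' => E.L ≤ E'.L⟩

theorem NLevel.le_def {E E' : NLevel p K} : E ≤ E' ↔ E.L ≤ E'.L := Iff.rfl

theorem NLevel.le_refl (E : NLevel p K) : E ≤ E := NLevel.le_def.2 (_root_.le_refl E.L)

theorem NLevel.le_trans {E E' E'' : NLevel p K} (h : E ≤ E') (h' : E' ≤ E'') : E ≤ E'' :=
  NLevel.le_def.2 (_root_.le_trans (NLevel.le_def.1 h) (NLevel.le_def.1 h'))

/-- `L ≤ L'` implies `E_L ≤ E_L'`. -/
theorem NLevel.E_le {E E' : NLevel p K} (h : E ≤ E') : E.E ≤ E'.E := by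
  rw [E.hE, E'.hE]
  exact Fermat.Agent.PT.BR.LocInj13.localField_mono p h

/-- `IsNormalLevel` in terms of `IntermediateField.map`. -/
theorem isNormalLevel_iff {E : IntermediateField ℚ_[p] (Kbar p)} :
    IsNormalLevel E ↔ ∀ τ : Gp p, E.map (τ : Kbar p →ₐ[ℚ_[p]] Kbar p) ≤ E := by
  constructor
  · rintro h τ _ ⟨y, hy, rfl⟩
    exact h τ y hy
  · intro h τ y hy
    exact h τ ⟨y, hy, rfl⟩

theorem isNormalLevel_sup {E E' : IntermediateField ℚ_[p] (Kbar p)} (h : IsNormalLevel E)
    (h' : IsNormalLevel E') : IsNormalLevel (E ⊔ E') := by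
  rw [isNormalLevel_iff] at h h' ⊢
  intro τ
  rw [IntermediateField.map_sup]
  exact sup_le ((h τ).trans le_sup_left) ((h' τ).trans le_sup_right)

/-- `ℚ_p(ι L)` is stable under `G_p` when `L / ℚ` is normal. -/
theorem isNormalLevel_localField (L : IntermediateField ℚ Qbar) [Normal ℚ L] :
    IsNormalLevel (Fermat.Agent.PT.BR.LocInj13.localField p L) := by
  rw [isNormalLevel_iff]
  intro τ
  rw [Fermat.Agent.PT.BR.LocInj13.localField, IntermediateField.adjoin_map]
  apply IntermediateField.adjoin.mono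
  rintro _ ⟨_, ⟨x, hx, rfl⟩, rfl⟩
  refine ⟨localGaloisToGlobal p τ x, ?_, ?_⟩
  · have h := coe_resL L (localGaloisToGlobal p τ) ⟨x, hx⟩
    rw [← h]
    exact (resL L (localGaloisToGlobal p τ) ⟨x, hx⟩).2
  · exact Fermat.Agent.T1.LocModel46.iota_res p τ x

/-- `E_L / ℚ_p` is stable under `G_p`. -/
theorem NLevel.nor (E : NLevel p K) : IsNormalLevel E.E := by
  haveI := E.norL
  rw [E.hE]
  exact isNormalLevel_localField E.L

/-- The level of a finite normal number field `L ⊇ K`. -/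
def NLevel.ofField (L : IntermediateField ℚ Qbar) [FiniteDimensional ℚ L] [Normal ℚ L]
    (hle : K ≤ L) : NLevel p K :=
  ⟨L, inferInstance, inferInstance, hle, Fermat.Agent.PT.BR.LocInj13.localField p L, rfl⟩

@[simp] theorem NLevel.ofField_L (L : IntermediateField ℚ Qbar) [FiniteDimensional ℚ L] [Normal ℚ L]
    (hle : K ≤ L) : (NLevel.ofField (p := p) L hle).L = L := rfl

/-- `Normal ℚ L` does not depend on the `ℚ`-algebra structure (instance plumbing). -/
theorem normal_rat_congr {L : Type*} [Field L] (a₁ a₂ : Algebra ℚ L)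
    (h : @Normal ℚ L _ _ a₁) : @Normal ℚ L _ _ a₂ := by
  have : a₁ = a₂ := Subsingleton.elim _ _
  subst this
  exact h

/-- The compositum of two normal number fields is normal. -/
theorem normal_sup' (L L' : IntermediateField ℚ Qbar) [hL : Normal ℚ L] [hL' : Normal ℚ L'] :
    Normal ℚ ↥(L ⊔ L') :=
  normal_rat_congr _ _
    (@IntermediateField.normal_sup ℚ Qbar _ _ _ L L' (normal_rat_congr _ _ hL)
      (normal_rat_congr _ _ hL'))

/-- The normal closure of a number field is normal. -/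
theorem normal_normalClosure' (F : IntermediateField ℚ Qbar) :
    Normal ℚ ↥(IntermediateField.normalClosure ℚ ↥F Qbar) :=
  normal_rat_congr _ _ (normalClosure.normal ℚ ↥F Qbar)

/-- The supremum of two normal levels. -/
def NLevel.sup (E E' : NLevel p K) : NLevel p K where
  L := E.L ⊔ E'.L
  finL := IntermediateField.finiteDimensional_sup E.L E'.L
  norL := normal_sup' E.L E'.L
  leL := E.leL.trans _root_.le_sup_left
  E := Fermat.Agent.PT.BR.LocInj13.localField p (E.L ⊔ E'.L)
  hE := rfl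

theorem NLevel.le_sup_left (E E' : NLevel p K) : E ≤ E.sup E' :=
  NLevel.le_def.2 (_root_.le_sup_left : E.L ≤ E.L ⊔ E'.L)

theorem NLevel.le_sup_right (E E' : NLevel p K) : E' ≤ E.sup E' :=
  NLevel.le_def.2 (_root_.le_sup_right : E'.L ≤ E.L ⊔ E'.L)

/-- Above every level there is one whose number field contains a given finite number field. -/
theorem NLevel.exists_ge_field (E : NLevel p K) (F : IntermediateField ℚ Qbar)
    [FiniteDimensional ℚ F] : ∃ E' : NLevel p K, E ≤ E' ∧ F ≤ E'.L := by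
  haveI : FiniteDimensional ℚ ↥(E.L ⊔ F) := IntermediateField.finiteDimensional_sup E.L F
  refine ⟨{ L := IntermediateField.normalClosure ℚ ↥(E.L ⊔ F) Qbar
            finL := normalClosure.is_finiteDimensional ℚ ↥(E.L ⊔ F) Qbar
            norL := normal_normalClosure' (E.L ⊔ F)
            leL := (E.leL.trans _root_.le_sup_left).trans
              (IntermediateField.le_normalClosure (E.L ⊔ F))
            E := Fermat.Agent.PT.BR.LocInj13.localField p
              (IntermediateField.normalClosure ℚ ↥(E.L ⊔ F) Qbar)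
            hE := rfl }, ?_, ?_⟩
  · exact NLevel.le_def.2
      ((_root_.le_sup_left : E.L ≤ E.L ⊔ F).trans (IntermediateField.le_normalClosure (E.L ⊔ F)))
  · exact (_root_.le_sup_right : F ≤ E.L ⊔ F).trans (IntermediateField.le_normalClosure (E.L ⊔ F))

variable (p K)

/-- Normal levels exist. -/
theorem NLevel.nonempty [FiniteDimensional ℚ K] : Nonempty (NLevel p K) :=
  ⟨{ L := IntermediateField.normalClosure ℚ ↥K Qbar
     finL := normalClosure.is_finiteDimensional ℚ ↥K Qbar
     norL := normal_normalClosure' K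
     leL := IntermediateField.le_normalClosure K
     E := Fermat.Agent.PT.BR.LocInj13.localField p (IntermediateField.normalClosure ℚ ↥K Qbar)
     hE := rfl }⟩

variable {p K}

/-- Above every normal level there is one containing a given finite set of elements of `ℚ̄_p`
(Krasner). -/
theorem NLevel.exists_ge_adjoin (E : NLevel p K) (S : Set (Kbar p)) (hS : S.Finite) :
    ∃ E' : NLevel p K, E ≤ E' ∧ ∀ z ∈ S, z ∈ E'.E := by
  classical
  choose β hβ using Fermat.Agent.PT.BR.LocInj13.exists_mem_adjoin_padicEmbedding p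
  let T : Set Qbar := β '' S
  have hT : T.Finite := hS.image β
  haveI : FiniteDimensional ℚ ↥(IntermediateField.adjoin ℚ T) := by
    have : Finite T := hT.to_subtype
    exact IntermediateField.finiteDimensional_adjoin fun x _ =>
      (AlgebraicClosure.isAlgebraic ℚ).isIntegral.isIntegral x
  obtain ⟨E', hE, hF⟩ := E.exists_ge_field (IntermediateField.adjoin ℚ T)
  refine ⟨E', hE, fun z hz => ?_⟩
  have h1 : IntermediateField.adjoin ℚ_[p] {padicEmbedding p (β z)} ≤ E'.E :=
    IntermediateField.adjoin_simple_le_iff.2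
      (E'.levL ⟨β z, hF (IntermediateField.subset_adjoin ℚ T ⟨z, hz, rfl⟩)⟩)
  exact h1 (hβ z)

theorem NLevel.exists_mem (E : NLevel p K) (z : Kbar p) :
    ∃ E' : NLevel p K, E ≤ E' ∧ z ∈ E'.E := by
  obtain ⟨E', hE, h⟩ := E.exists_ge_adjoin {z} (Set.finite_singleton z)
  exact ⟨E', hE, h z rfl⟩

/-! ### The Picard groups of the levels and their base-change maps -/

section Pic

variable {B0 B1 B01 : Type} [CommRing B0] [CommRing B1] [CommRing B01]
  [Algebra (Wb p K) B0] [Algebra (Wb p K) B1] [Algebra (Wb p K) B01] [Algebra B0 B01]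
  [Algebra B1 B01] [IsScalarTower (Wb p K) B0 B01] [IsScalarTower (Wb p K) B1 B01]
  (c0 : TwoChart (Wb p K) B0 B1 B01)

variable (p K) in
/-- `Pic X_{ℚ̄_p}`. -/
abbrev PicTop : Type 1 :=
  letI := algWKbar p K
  PicX c0 (Kbar p)

variable (p K) in
/-- `A = Pic X_{ℚ̄_p}`, additively. -/
abbrev Atop : Type 1 := Additive (PicTop p K c0)

/-- `Pic X_{O_E}`. -/
abbrev PicO (E : NLevel p K) : Type 1 :=
  letI := algWO E.lev
  PicX c0 ↥(intSubring p E.E)

/-- `Pic X_E`. -/
abbrev PicE (E : NLevel p K) : Type 1 :=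
  letI := algWE E.lev
  PicX c0 ↥E.E

/-- `Pic X_{O_E} → Pic X_{ℚ̄_p}`. -/
def bcO (E : NLevel p K) : PicO c0 E →* PicTop p K c0 :=
  letI := algWO E.lev
  letI := algWKbar p K
  letI := algOKbar E.E
  haveI := tower_W_O_Kbar E.lev
  PicX.map c0 ↥(intSubring p E.E) (Kbar p)

/-- `Pic X_E → Pic X_{ℚ̄_p}`. -/
def bcE (E : NLevel p K) : PicE c0 E →* PicTop p K c0 :=
  letI := algWE E.lev
  letI := algWKbar p K
  letI := algEKbar E.E
  haveI := tower_W_E_Kbar E.lev
  PicX.map c0 ↥E.E (Kbar p)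

/-- `Pic X_{O_E} → Pic X_E`. -/
def bcOE (E : NLevel p K) : PicO c0 E →* PicE c0 E :=
  letI := algWO E.lev
  letI := algWE E.lev
  letI := algOE E.E
  haveI := tower_W_O_E E.lev
  PicX.map c0 ↥(intSubring p E.E) ↥E.E

/-- `Pic X_{O_E} → Pic X_{O_E'}` for `E ≤ E'`. -/
def bcOO {E E' : NLevel p K} (hE : E ≤ E') : PicO c0 E →* PicO c0 E' :=
  letI := algWO E.lev
  letI := algWO E'.lev
  letI := algOO (p := p) (NLevel.E_le hE)
  haveI := tower_W_O_O E.lev (NLevel.E_le hE)
  PicX.map c0 ↥(intSubring p E.E) ↥(intSubring p E'.E)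

/-- `Pic X_E → Pic X_E'` for `E ≤ E'`. -/
def bcEE {E E' : NLevel p K} (hE : E ≤ E') : PicE c0 E →* PicE c0 E' :=
  letI := algWE E.lev
  letI := algWE E'.lev
  letI := algEE (p := p) (NLevel.E_le hE)
  haveI := tower_W_E_E E.lev (NLevel.E_le hE)
  PicX.map c0 ↥E.E ↥E'.E

theorem bcE_bcOE (E : NLevel p K) (x : PicO c0 E) : bcE c0 E (bcOE c0 E x) = bcO c0 E x := by
  letI := algWO E.lev
  letI := algWE E.lev
  letI := algWKbar p K
  letI := algOE E.E
  letI := algOKbar E.E
  letI := algEKbar E.E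
  haveI := tower_W_O_E E.lev
  haveI := tower_W_O_Kbar E.lev
  haveI := tower_W_E_Kbar E.lev
  haveI := tower_O_E_Kbar E.E
  exact PicX.map_comp c0 ↥(intSubring p E.E) ↥E.E (Kbar p) x

theorem bcO_bcOO {E E' : NLevel p K} (hE : E ≤ E') (x : PicO c0 E) :
    bcO c0 E' (bcOO c0 hE x) = bcO c0 E x := by
  letI := algWO E.lev
  letI := algWO E'.lev
  letI := algWKbar p K
  letI := algOO (p := p) (NLevel.E_le hE)
  letI := algOKbar E.E
  letI := algOKbar E'.E
  haveI := tower_W_O_O E.lev (NLevel.E_le hE)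
  haveI := tower_W_O_Kbar E.lev
  haveI := tower_W_O_Kbar E'.lev
  haveI := tower_O_O_Kbar (p := p) (NLevel.E_le hE)
  exact PicX.map_comp c0 ↥(intSubring p E.E) ↥(intSubring p E'.E) (Kbar p) x

theorem bcE_bcEE {E E' : NLevel p K} (hE : E ≤ E') (x : PicE c0 E) :
    bcE c0 E' (bcEE c0 hE x) = bcE c0 E x := by
  letI := algWE E.lev
  letI := algWE E'.lev
  letI := algWKbar p K
  letI := algEE (p := p) (NLevel.E_le hE)
  letI := algEKbar E.E
  letI := algEKbar E'.E
  haveI := tower_W_E_E E.lev (NLevel.E_le hE)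
  haveI := tower_W_E_Kbar E.lev
  haveI := tower_W_E_Kbar E'.lev
  haveI := tower_E_E_Kbar (p := p) (NLevel.E_le hE)
  exact PicX.map_comp c0 ↥E.E ↥E'.E (Kbar p) x

/-! ### Unions of subgroups -/

/-- A family of subgroups of the `Pic X_{O_E}` compatible with base change. -/
def Compatible (P : ∀ E : NLevel p K, Subgroup (PicO c0 E)) : Prop :=
  ∀ (E E' : NLevel p K) (hE : E ≤ E') (x : PicO c0 E), x ∈ P E → bcOO c0 hE x ∈ P E'

/-- The union over the levels of the images in `A = Pic X_{ℚ̄_p}` of a compatible family of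
subgroups. -/
def unionSub [hne : Nonempty (NLevel p K)] (P : ∀ E : NLevel p K, Subgroup (PicO c0 E))
    (hP : Compatible c0 P) : AddSubgroup (Atop p K c0) where
  carrier := {y | ∃ (E : NLevel p K) (x : PicO c0 E), x ∈ P E ∧ Additive.ofMul (bcO c0 E x) = y}
  zero_mem' := by
    obtain ⟨E⟩ := hne
    exact ⟨E, 1, (P E).one_mem, by rw [map_one]; rfl⟩
  add_mem' := by
    rintro _ _ ⟨E, x, hx, rfl⟩ ⟨E', x', hx', rfl⟩
    refine ⟨E.sup E', bcOO c0 (E.le_sup_left E') x * bcOO c0 (E.le_sup_right E') x',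
      (P _).mul_mem (hP _ _ _ x hx) (hP _ _ _ x' hx'), ?_⟩
    rw [map_mul, bcO_bcOO, bcO_bcOO]
    rfl
  neg_mem' := by
    rintro _ ⟨E, x, hx, rfl⟩
    exact ⟨E, x⁻¹, (P E).inv_mem hx, by rw [map_inv]; rfl⟩

theorem mem_unionSub [Nonempty (NLevel p K)] {P : ∀ E : NLevel p K, Subgroup (PicO c0 E)}
    {hP : Compatible c0 P} {y : Atop p K c0} :
    y ∈ unionSub c0 P hP ↔
      ∃ (E : NLevel p K) (x : PicO c0 E), x ∈ P E ∧ Additive.ofMul (bcO c0 E x) = y :=
  Iff.rfl

theorem mem_unionSub_of_mem [Nonempty (NLevel p K)] {P : ∀ E : NLevel p K, Subgroup (PicO c0 E)}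
    {hP : Compatible c0 P} (E : NLevel p K) {x : PicO c0 E} (hx : x ∈ P E) :
    Additive.ofMul (bcO c0 E x) ∈ unionSub c0 P hP :=
  ⟨E, x, hx, rfl⟩

/-- Monotonicity of the union. -/
theorem unionSub_mono [Nonempty (NLevel p K)] {P Q : ∀ E : NLevel p K, Subgroup (PicO c0 E)}
    {hP : Compatible c0 P} {hQ : Compatible c0 Q} (h : ∀ E, P E ≤ Q E) :
    unionSub c0 P hP ≤ unionSub c0 Q hQ := by
  rintro _ ⟨E, x, hx, rfl⟩
  exact ⟨E, x, h E hx, rfl⟩

/-- A level may always be enlarged. -/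
theorem exists_ge_of_mem_unionSub [Nonempty (NLevel p K)]
    {P : ∀ E : NLevel p K, Subgroup (PicO c0 E)} {hP : Compatible c0 P} {y : Atop p K c0}
    (hy : y ∈ unionSub c0 P hP) (E₀ : NLevel p K) :
    ∃ (E : NLevel p K) (_ : E₀ ≤ E) (x : PicO c0 E), x ∈ P E ∧ Additive.ofMul (bcO c0 E x) = y := by
  obtain ⟨E, x, hx, rfl⟩ := hy
  refine ⟨E₀.sup E, E₀.le_sup_left E, bcOO c0 (E₀.le_sup_right E) x, hP _ _ _ x hx, ?_⟩
  rw [bcO_bcOO]

end Pic

end Fermat.Agent.T1B.Local66.Union
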