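/-
Programme T1B (row 38 via S44), brick `LOCAL44-ASM` / GLUE (helper66): THE CONCRETE OBJECTS
`A, Pt, J0, J1, C` of `Local66.Assembly.LocalGeom` and their formal properties.

`c0 : TwoChart W B0 B1 B01` any two-chart datum over `W = Wb p K`; `hK : InertFixed (padicPlace p) K`.

* `A := Atop p K c0` with `actA := Bridge54.IpInst.actTop c0 hK`;
* `PtFam c0 E ≤ Pic X_E` (classes of `E`-points), `PtTop c0 : AddSubgroup (Atop p K c0)` (v2, UNION
  FORM: `mem_PtTop : y ∈ PtTop c0 ↔ ∃ E, ∃ x ∈ PtFam c0 E, ofMul (bcE c0 E x) = y`), stable under inertia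
  (`smul_mem_PtTop`), `exists_ge_of_mem_PtTop`, `toMul_mem_picPt_of_mem_PtTop`;
* `compatible_J1Fam` : `J̃¹(O_E) → J̃¹(O_E')` (functoriality of the reduction map);
  `compatible_inf`;
* for a compatible family `P00 E ≤ Pic X_{O_E}` containing the `J̃¹(O_E)`:
  `J0top c0 P00 hPP := unionSub c0 P00 hPP`,  `J1top c0 P00 hPP := unionSub c0 (P00 ⊓ J̃¹) _`,
  `J1top_le_J0top`  (= `LocalGeom.J1_le`),  `sub_mem_J1top` (= `LocalGeom.sub_mem_J1`),
  `smul_mem_J0top`, `smul_mem_J1top` (inertia-stability);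
* `CSub c0 E0 r` : the subgroup of `A` generated by the images of a set `r` of classes over `O_{E0}`;
  `CSub_le_unionSub` (`r ⊆ P E0`), in particular `CSub ≤ JextTop = unionSub ⊤`.
-/
import Mathlib
import Fermat.Agent.T1B.Local66.Union
import Fermat.Agent.T1B.Bridge54.IpUnion
import Fermat.Agent.T1B.Union81.IntSubDVR
import Fermat.Agent.T1.PtLine75
import Fermat.Agent.T1.Red11.MapComp

set_option autoImplicit false
set_option linter.unusedSectionVars false
set_option linter.style.haveILetI false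
set_option synthInstance.maxHeartbeats 400000
set_option maxHeartbeats 1000000

open Fermat.Agent.TW.B5.Iface Fermat.Agent.RED.Interface4 Fermat.Agent.T1.HubInst98
open Fermat.Agent.T1.IntSub47 Fermat.Agent.Jac Fermat.Agent.T1.RedIface75
open Fermat.Agent.T1.PtLine75 Fermat.Agent.T1.Red11
open Fermat.Agent.T1B.Local66.LocalBase Fermat.Agent.T1B.Local66.Union
open Fermat.Agent.T1B.Plumb66.Inertia (Ip mem_Ip)
open Fermat.Agent.T1B.Bridge54.IpAction Fermat.Agent.T1B.Bridge54.IpInst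
open Fermat.Agent.T1B.Bridge54.IpUnion
open Fermat.Agent.ES.P36.InertField27 (InertFixed)

noncomputable section

namespace Fermat.Agent.T1B.Local66.Objects

variable {p : ℕ} [Fact p.Prime] {K : IntermediateField ℚ Qbar}
  {B0 B1 B01 : Type} [CommRing B0] [CommRing B1] [CommRing B01]
  [Algebra (Wb p K) B0] [Algebra (Wb p K) B1] [Algebra (Wb p K) B01] [Algebra B0 B01]
  [Algebra B1 B01] [IsScalarTower (Wb p K) B0 B01] [IsScalarTower (Wb p K) B1 B01]
  (c0 : TwoChart (Wb p K) B0 B1 B01)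

/-! ### The classes of points -/

/-- The subgroup of `Pic X_E` generated by the classes of `E`-points. -/
def PtFam (E : NLevel p K) : Subgroup (PicE c0 E) :=
  letI := algWE E.lev
  (pointClasses c0).PicPt ↥E.E

theorem mem_PtFam {E : NLevel p K} {x : PicE c0 E} :
    x ∈ PtFam c0 E ↔
      (letI := algWE E.lev
       x ∈ (pointClasses c0).PicPt ↥E.E) := Iff.rfl

theorem bcEE_mem_PtFam {E E' : NLevel p K} (hE : E ≤ E') {x : PicE c0 E} (hx : x ∈ PtFam c0 E) :
    bcEE c0 hE x ∈ PtFam c0 E' := by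
  letI := algWE E.lev
  letI := algWE E'.lev
  letI := algEE (p := p) (NLevel.E_le hE)
  haveI := tower_W_E_E E.lev (NLevel.E_le hE)
  exact (pointClasses c0).map_mem ↥E.E ↥E'.E x hx

theorem bcE_mem_picPt {E : NLevel p K} {x : PicE c0 E} (hx : x ∈ PtFam c0 E) :
    letI := algWKbar p K
    bcE c0 E x ∈ (pointClasses c0).PicPt (Kbar p) := by
  letI := algWE E.lev
  letI := algWKbar p K
  letI := algEKbar E.E
  haveI := tower_W_E_Kbar E.lev
  exact (pointClasses c0).map_mem ↥E.E (Kbar p) x hx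

/-- `Pt` (v2, UNION FORM, helper45's request): the classes in `A = Pic X_{ℚ̄_p}` which, at some
finite level `E`, are generated by classes of `E`-points. -/
def PtTop [hne : Nonempty (NLevel p K)] : AddSubgroup (Atop p K c0) where
  carrier := {y | ∃ (E : NLevel p K) (x : PicE c0 E), x ∈ PtFam c0 E ∧
    Additive.ofMul (bcE c0 E x) = y}
  zero_mem' := by
    obtain ⟨E⟩ := hne
    exact ⟨E, 1, (PtFam c0 E).one_mem, by rw [map_one]; rfl⟩
  add_mem' := by
    rintro _ _ ⟨E, x, hx, rfl⟩ ⟨E', x', hx', rfl⟩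
    refine ⟨E.sup E', bcEE c0 (E.le_sup_left E') x * bcEE c0 (E.le_sup_right E') x',
      (PtFam c0 _).mul_mem (bcEE_mem_PtFam c0 _ hx) (bcEE_mem_PtFam c0 _ hx'), ?_⟩
    rw [map_mul, bcE_bcEE, bcE_bcEE]
    rfl
  neg_mem' := by
    rintro _ ⟨E, x, hx, rfl⟩
    exact ⟨E, x⁻¹, (PtFam c0 E).inv_mem hx, by rw [map_inv]; rfl⟩

theorem mem_PtTop [Nonempty (NLevel p K)] {y : Atop p K c0} :
    y ∈ PtTop c0 ↔
      ∃ (E : NLevel p K) (x : PicE c0 E), x ∈ PtFam c0 E ∧ Additive.ofMul (bcE c0 E x) = y :=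
  Iff.rfl

theorem ofMul_bcE_mem_PtTop [Nonempty (NLevel p K)] (E : NLevel p K) {x : PicE c0 E}
    (hx : x ∈ PtFam c0 E) : (Additive.ofMul (bcE c0 E x) : Atop p K c0) ∈ PtTop c0 :=
  ⟨E, x, hx, rfl⟩

/-- A level may always be enlarged. -/
theorem exists_ge_of_mem_PtTop [Nonempty (NLevel p K)] {y : Atop p K c0} (hy : y ∈ PtTop c0)
    (E₀ : NLevel p K) :
    ∃ (E : NLevel p K) (_ : E₀ ≤ E) (x : PicE c0 E), x ∈ PtFam c0 E ∧
      Additive.ofMul (bcE c0 E x) = y := by
  obtain ⟨E, x, hx, rfl⟩ := hy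
  refine ⟨E₀.sup E, E₀.le_sup_left E, bcEE c0 (E₀.le_sup_right E) x,
    bcEE_mem_PtFam c0 _ hx, ?_⟩
  rw [bcE_bcEE]

/-- Elements of `Pt` are classes of `ℚ̄_p`-points. -/
theorem toMul_mem_picPt_of_mem_PtTop [Nonempty (NLevel p K)] {y : Atop p K c0}
    (hy : y ∈ PtTop c0) :
    letI := algWKbar p K
    Additive.toMul y ∈ (pointClasses c0).PicPt (Kbar p) := by
  obtain ⟨E, x, hx, rfl⟩ := hy
  exact bcE_mem_picPt c0 hx

/-- The classes of `E`-points are stable under inertia. -/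
theorem gE_mem_PtFam (hK : InertFixed (padicPlace p) K) (E : NLevel p K) (τ : ↥(Ip p))
    {x : PicE c0 E} (hx : x ∈ PtFam c0 E) : gE c0 E hK τ x ∈ PtFam c0 E := by
  letI := algWE E.lev
  letI := mulSemiringActionE E
  haveI := smulCommClass_W_E E hK
  exact actPicLin_mem_picPt c0 τ hx

/-- `Pt` is stable under inertia. -/
theorem smul_mem_PtTop [Nonempty (NLevel p K)] (hK : InertFixed (padicPlace p) K) (τ : ↥(Ip p))
    {y : Atop p K c0} (hy : y ∈ PtTop c0) :
    letI := actTop c0 hK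
    τ • y ∈ PtTop c0 := by
  obtain ⟨E, x, hx, rfl⟩ := hy
  refine ⟨E, gE c0 E hK τ x, gE_mem_PtFam c0 hK E τ hx, ?_⟩
  rw [bcE_gE]
  rfl

/-! ### Functoriality of `J̃¹` -/

/-- `Pic X_{O_E} → Pic X_{O_E'}` maps `J̃¹(O_E)` into `J̃¹(O_E')`. -/
theorem compatible_J1Fam : Compatible c0 (J1Fam c0) := by
  intro E E' hE x hx
  letI := algWO E.lev
  letI := algWO E'.lev
  letI := algOO (p := p) (NLevel.E_le hE)
  haveI := tower_W_O_O E.lev (NLevel.E_le hE)
  haveI := isDVR_O E.E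
  haveI := isDVR_O E'.E
  haveI : IsLocalHom (algebraMap ↥(intSubring p E.E) ↥(intSubring p E'.E)) :=
    Fermat.Agent.T1B.Union81.isLocalHom_incl p (NLevel.E_le hE)
  have h1 : PicX.map c0 ↥(intSubring p E.E) (IsLocalRing.ResidueField ↥(intSubring p E.E)) x = 1 := hx
  show PicX.map c0 ↥(intSubring p E'.E) (IsLocalRing.ResidueField ↥(intSubring p E'.E))
    (PicX.map c0 ↥(intSubring p E.E) ↥(intSubring p E'.E) x) = 1
  rw [PicX.map_comp c0 ↥(intSubring p E.E) ↥(intSubring p E'.E)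
      (IsLocalRing.ResidueField ↥(intSubring p E'.E)),
    ← PicX.map_comp c0 ↥(intSubring p E.E) (IsLocalRing.ResidueField ↥(intSubring p E.E))
      (IsLocalRing.ResidueField ↥(intSubring p E'.E)), h1, map_one]

theorem compatible_inf {P Q : ∀ E : NLevel p K, Subgroup (PicO c0 E)} (hP : Compatible c0 P)
    (hQ : Compatible c0 Q) : Compatible c0 (fun E => P E ⊓ Q E) := fun E E' hE x hx =>
  Subgroup.mem_inf.2 ⟨hP E E' hE x (Subgroup.mem_inf.1 hx).1, hQ E E' hE x (Subgroup.mem_inf.1 hx).2⟩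

theorem compatible_top : Compatible c0 (fun E : NLevel p K => (⊤ : Subgroup (PicO c0 E))) :=
  fun _ _ _ _ _ => Subgroup.mem_top _

/-! ### `J0`, `J1` -/

section J

variable [Nonempty (NLevel p K)] (P00 : ∀ E : NLevel p K, Subgroup (PicO c0 E))
  (hPP : Compatible c0 P00)

/-- `J0`: the classes which, at some finite level, extend to a class of multidegree `0` over `O_E`. -/
def J0top : AddSubgroup (Atop p K c0) := unionSub c0 P00 hPP

/-- `J1`: the classes which, at some finite level, extend to a class of multidegree `0` over `O_E`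
with trivial special fibre. -/
def J1top : AddSubgroup (Atop p K c0) :=
  unionSub c0 (fun E => P00 E ⊓ J1Fam c0 E) (compatible_inf c0 hPP (compatible_J1Fam c0))

/-- `JextTop`: the classes which extend to some `O_E`. -/
def JextTop : AddSubgroup (Atop p K c0) :=
  unionSub c0 (fun E : NLevel p K => (⊤ : Subgroup (PicO c0 E))) (compatible_top c0)

theorem mem_J0top {y : Atop p K c0} :
    y ∈ J0top c0 P00 hPP ↔
      ∃ (E : NLevel p K) (x : PicO c0 E), x ∈ P00 E ∧ Additive.ofMul (bcO c0 E x) = y := Iff.rfl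

theorem mem_J1top {y : Atop p K c0} :
    y ∈ J1top c0 P00 hPP ↔
      ∃ (E : NLevel p K) (x : PicO c0 E), x ∈ P00 E ⊓ J1Fam c0 E ∧
        Additive.ofMul (bcO c0 E x) = y := Iff.rfl

theorem mem_JextTop {y : Atop p K c0} :
    y ∈ JextTop c0 ↔ ∃ (E : NLevel p K) (x : PicO c0 E), Additive.ofMul (bcO c0 E x) = y := by
  constructor
  · rintro ⟨E, x, -, h⟩
    exact ⟨E, x, h⟩
  · rintro ⟨E, x, h⟩
    exact ⟨E, x, Subgroup.mem_top _, h⟩

/-- `LocalGeom.J1_le`. -/
theorem J1top_le_J0top : J1top c0 P00 hPP ≤ J0top c0 P00 hPP :=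
  unionSub_mono c0 fun _ => inf_le_left

theorem J0top_le_JextTop : J0top c0 P00 hPP ≤ JextTop c0 :=
  unionSub_mono c0 fun _ => le_top

/-- `LocalGeom.sub_mem_J1`. -/
theorem sub_mem_J1top (hK : InertFixed (padicPlace p) K) (hJP : ∀ E, J1Fam c0 E ≤ P00 E)
    (τ : ↥(Ip p)) {y : Atop p K c0} (hy : y ∈ J0top c0 P00 hPP) :
    letI := actTop c0 hK
    τ • y - y ∈ J1top c0 P00 hPP :=
  smul_sub_mem_unionSub_J1 c0 hK hJP τ hy

/-- `J0` is stable under inertia. -/
theorem smul_mem_J0top (hK : InertFixed (padicPlace p) K) (hJP : ∀ E, J1Fam c0 E ≤ P00 E)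
    (τ : ↥(Ip p)) {y : Atop p K c0} (hy : y ∈ J0top c0 P00 hPP) :
    letI := actTop c0 hK
    τ • y ∈ J0top c0 P00 hPP :=
  smul_mem_unionSub_of_J1Fam_le c0 hK hJP τ hy

/-- `J1` is stable under inertia. -/
theorem smul_mem_J1top (hK : InertFixed (padicPlace p) K) (hJP : ∀ E, J1Fam c0 E ≤ P00 E)
    (τ : ↥(Ip p)) {y : Atop p K c0} (hy : y ∈ J1top c0 P00 hPP) :
    letI := actTop c0 hK
    τ • y ∈ J1top c0 P00 hPP :=
  smul_mem_unionSub_inf_J1 c0 hK
    (fun E τ _ hx => gO_mem_of_J1Fam_le c0 hK E (hJP E) τ hx) τ hy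

end J

/-! ### `C` -/

section C

variable [Nonempty (NLevel p K)]

/-- The subgroup of `A` generated by the images of a set `r` of classes over `O_{E0}`
(`C`: `r = {[R₁], [R₂]}`, the classes of two sections with smooth reduction on the two components). -/
def CSub (E0 : NLevel p K) (r : Set (PicO c0 E0)) : AddSubgroup (Atop p K c0) :=
  AddSubgroup.closure ((fun y : PicO c0 E0 => (Additive.ofMul (bcO c0 E0 y) : Atop p K c0)) '' r)

theorem ofMul_bcO_mem_CSub (E0 : NLevel p K) {r : Set (PicO c0 E0)} {y : PicO c0 E0} (hy : y ∈ r) :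
    (Additive.ofMul (bcO c0 E0 y) : Atop p K c0) ∈ CSub c0 E0 r :=
  AddSubgroup.subset_closure ⟨y, hy, rfl⟩

theorem CSub_mono (E0 : NLevel p K) {r r' : Set (PicO c0 E0)} (h : r ⊆ r') :
    CSub c0 E0 r ≤ CSub c0 E0 r' :=
  AddSubgroup.closure_mono (Set.image_mono h)

/-- `C` lies in every union of subgroups containing its generators. -/
theorem CSub_le_unionSub {P : ∀ E : NLevel p K, Subgroup (PicO c0 E)} {hP : Compatible c0 P}
    (E0 : NLevel p K) {r : Set (PicO c0 E0)} (hr : ∀ y ∈ r, y ∈ P E0) :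
    CSub c0 E0 r ≤ unionSub c0 P hP := by
  refine (AddSubgroup.closure_le _).2 ?_
  rintro _ ⟨y, hy, rfl⟩
  exact mem_unionSub_of_mem c0 E0 (hr y hy)

/-- `C ≤ JextTop`. -/
theorem CSub_le_JextTop (E0 : NLevel p K) (r : Set (PicO c0 E0)) : CSub c0 E0 r ≤ JextTop c0 :=
  CSub_le_unionSub c0 E0 fun _ _ => Subgroup.mem_top _

/-- Elements of `C` for `r = {r₁, r₂}`. -/
theorem mem_CSub_pair (E0 : NLevel p K) (r₁ r₂ : PicO c0 E0) {z : Atop p K c0} :
    z ∈ CSub c0 E0 {r₁, r₂} ↔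
      ∃ m₁ m₂ : ℤ, z = m₁ • (Additive.ofMul (bcO c0 E0 r₁) : Atop p K c0) +
        m₂ • (Additive.ofMul (bcO c0 E0 r₂) : Atop p K c0) := by
  rw [CSub, Set.image_pair, AddSubgroup.mem_closure_pair]
  constructor
  · rintro ⟨m₁, m₂, h⟩
    exact ⟨m₁, m₂, h.symm⟩
  · rintro ⟨m₁, m₂, h⟩
    exact ⟨m₁, m₂, h.symm⟩

end C

end Fermat.Agent.T1B.Local66.Objects
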