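/-
Programme T1B (row 38 via S44), brick `LOCAL44-ASM` (helper66): THE ASSEMBLY OF `LOCAL44`  (v6).

`Top68.LOCAL44 U Sp` (level lowering at `p` on `J₀`, the contract of the local team) is PROVED here
from ONE list of hypotheses stated in the GLOBAL vocabulary (`JZero N`, `heckeOperatorBar`, the family
`U : Top68.UFamily` of `U_2`-operators, `FreyTors P`, the local INERTIA group
`Ip p ≤ Gp p` (`Plumb66.Inertia.Ip`) acting through `res = localGaloisToGlobal p`,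
`oneUnits p = 1 + 𝔪_{ℚ̄_p}`).  v5: only the inertia group acts on `A` (it acts `W`-linearly on the nodal
hub over an inertial base, so no semilinear chart action is needed):

* `DegeneracyOK U π` (GLOBAL, char. 0) : the degeneracy maps `π₁ π₂ : J₀(M'p) → J₀(M')` preserve the
                                       occurrence subgroups;
* `NonEisenstein` (GLOBAL)          : `E[p]` irreducible ⇒ some good `ℓ` with `p ∤ a_ℓ - (ℓ + 1)`
                                       (DISCHARGED in `Local66/ESideInst.lean` from helper2's `NonEis2`);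
* `ESideData P`  (E-SIDE)           : the structure of `E[p]` at `p ∣ abc`: `χ`-line `P₀`, complement `Q`
                                       with `σ Q = Q + c(σ) P₀`, and (PEU) a one-unit `w` with
                                       `σ w = w ζ ^ c(σ)`  (DISCHARGED in `Local66/ESideInst.lean` from
                                       helper48's `ESide48.peu_frey_global_full`);
* `LocalGeom p N M' π₁ π₂ UN S TD UD` (NODE/PHI + RED/HECKE + TORIC + J-BRIDGE) : the local points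
  `A = J(ℚ̄_p)` with the bridge `j : J₀(N)(ℚ̄)[p] → A` (on the `p`-torsion only, as T1A's `DictFinal`),
  the classes of points `Pt ⊇ im j`, the subgroups `J1 ≤ J0`, `C` (generated by the classes of smooth
  points on the two sides), the RESIDUE VECTOR `ρ : J₀(N)(ℚ̄)[p] → R` (helper45's report 997: (R1), (R2)),
  the DETECTORS `δ i : J₀(N)(ℚ̄)[p] → D` (helper3's `q`-dlogs `δ₁ δ₂` into `κ̄((q))`) with (KER), (HOL),
  (EQV), and the toric map `ιT : (E → 1 + 𝔪) → J1` with `j (ker π₁ ∩ ker π₂) ∩ J1 ⊆ ιT (μ_p^E)`.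
  NO Hecke operator on `A` is needed: `T_ℓ`, `U_2` only act on `J₀(N)(ℚ̄)[p]`, on `R` and on `D`.

Conclusion (`local44`): `LOCAL44 U Sp` for `Sp P m W C := SpOf (S p (4m)) (TD p (4m)) (UD p (4m)) …` =
"the eigensystem occurs in `S ⊆ D`" (`S` = `q`-expansions of weight 2 level `4m` cusp forms mod `p`).
The proof is the chain of masterplan 761: `χ`-line ⊂ `J1` ⊂ toric part, toric correction, `Φ`-step in
RESIDUE form (`Node45.PhiRes`), `V ⊂ J0`, some `δ i Q ≠ 0`, eigen-properties.  (The same chain, with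
abstract `I` and a single abstract `δ`, is helper46's `Local46.exists_delta_ne_zero`.)
-/
import Mathlib
import Fermat.Agent.T1B.Top68.Global
import Fermat.Agent.T1B.Node45.PhiRes
import Fermat.Agent.T1B.Plumb66.Cyclo
import Fermat.Agent.T1B.Plumb66.OneUnits

set_option autoImplicit false
set_option linter.unusedSectionVars false
set_option linter.unusedVariables false

open WeierstrassCurve WeierstrassCurve.Affine WeierstrassCurve.Affine.Point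
open Fermat.Agent.TW.B5.Iface Fermat.Agent.T1B.Top68 ModularCurve
open Fermat.Agent.T1B.Plumb66.Cyclo Fermat.Agent.T1B.Plumb66.OneUnits
open Fermat.Agent.T1B.Plumb66.Inertia (Ip mem_Ip)

noncomputable section

namespace Fermat.Agent.T1B.Local66.Assembly

/-! ### General lemmas (Mathlib only) -/

section General

/-- Polynomials in intertwined endomorphisms are intertwined. -/
theorem aeval_intertwine {M N : Type*} [AddCommGroup M] [AddCommGroup N] (f : M →+ N)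
    (S : Module.End ℤ M) (T : Module.End ℤ N) (h : ∀ x, f (S x) = T (f x)) (c : Polynomial ℤ)
    (x : M) : f (Polynomial.aeval S c x) = Polynomial.aeval T c (f x) := by
  have hpow : ∀ (n : ℕ) (x : M), f ((S ^ n) x) = (T ^ n) (f x) := by
    intro n
    induction n with
    | zero => intro x; simp
    | succ n ih => intro x; rw [pow_succ, pow_succ, Module.End.mul_apply, Module.End.mul_apply, ih, h]
  induction c using Polynomial.induction_on' with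
  | add c d hc hd =>
    rw [map_add, map_add, LinearMap.add_apply, LinearMap.add_apply, map_add, hc, hd]
  | monomial n a =>
    rw [Polynomial.aeval_monomial, Polynomial.aeval_monomial]
    simp only [eq_intCast, Module.End.mul_apply]
    rw [Module.End.intCast_apply, Module.End.intCast_apply, map_zsmul, hpow]

/-- Polynomials in an endomorphism `UN` stabilising a subgroup `H`, seen through an additive map
`δ : H → D` intertwining `UN` with `UD`. -/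
theorem aeval_restrict_intertwine {M D : Type*} [AddCommGroup M] [AddCommGroup D]
    (H : AddSubgroup M) (δ : ↥H →+ D) (UN : Module.End ℤ M) (UD : Module.End ℤ D)
    (hstab : ∀ x ∈ H, UN x ∈ H)
    (hδ : ∀ (x : M) (hx : x ∈ H), δ ⟨UN x, hstab x hx⟩ = UD (δ ⟨x, hx⟩))
    (c : Polynomial ℤ) (x : M) (hx : x ∈ H) :
    ∃ h : Polynomial.aeval UN c x ∈ H, δ ⟨_, h⟩ = Polynomial.aeval UD c (δ ⟨x, hx⟩) := by
  let U0 : Module.End ℤ ↥H :=
    UN.restrict (p := H.toIntSubmodule) (q := H.toIntSubmodule) hstab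
  have e1 : ∀ y : ↥H, δ (U0 y) = UD (δ y) := fun y => hδ y.1 y.2
  have e2 : ∀ y : ↥H, H.subtype (U0 y) = UN (H.subtype y) := fun y => rfl
  have h1 := aeval_intertwine δ U0 UD e1 c ⟨x, hx⟩
  have h2 : ((Polynomial.aeval U0 c (⟨x, hx⟩ : ↥H) : ↥H) : M) = Polynomial.aeval UN c x :=
    aeval_intertwine H.subtype U0 UN e2 c ⟨x, hx⟩
  have hmem : Polynomial.aeval UN c x ∈ H := by
    rw [← h2]
    exact (Polynomial.aeval U0 c (⟨x, hx⟩ : ↥H)).2
  refine ⟨hmem, ?_⟩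
  rw [← h1]
  congr 1
  exact Subtype.ext h2.symm

/-- `x = m • (y - x)` when `y = χ • x`, `p • x = 0` and `(χ - 1) m ≡ 1 [MOD p]`. -/
theorem eq_nsmul_sub_of_modEq {A : Type*} [AddCommGroup A] {p χ m : ℕ} {x y : A}
    (hxp : p • x = 0) (hy : y = χ • x) (hm : χ * m ≡ m + 1 [MOD p]) : x = m • (y - x) := by
  rw [hy, smul_sub, ← mul_smul, mul_comm]
  have h1 : (χ * m) • x = (m + 1) • x := by
    obtain ⟨a, b, hab⟩ : ∃ a b : ℕ, χ * m + p * a = m + 1 + p * b := by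
      rcases Nat.le_total (χ * m) (m + 1) with hle | hle
      · obtain ⟨c, hc⟩ := (Nat.modEq_iff_dvd' hle).1 hm
        exact ⟨c, 0, by omega⟩
      · obtain ⟨c, hc⟩ := (Nat.modEq_iff_dvd' hle).1 hm.symm
        exact ⟨0, c, by omega⟩
    have h2 : (χ * m + p * a) • x = (m + 1 + p * b) • x := by rw [hab]
    have hpa : (p * a) • x = 0 := by rw [mul_comm, mul_smul, hxp, smul_zero]
    have hpb : (p * b) • x = 0 := by rw [mul_comm, mul_smul, hxp, smul_zero]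
    rw [add_smul, add_smul (m + 1), hpa, hpb, add_zero, add_zero] at h2
    exact h2
  rw [h1, add_smul, one_smul, add_sub_cancel_left]

/-- A multiplicative-to-additive map sends powers to multiples. -/
theorem map_pow_of_map_mul {U A : Type*} [Monoid U] [AddCommGroup A] (ι : U → A)
    (h : ∀ a b : U, ι (a * b) = ι a + ι b) (a : U) (n : ℕ) : ι (a ^ n) = n • ι a := by
  have h1 : ι (1 : U) = 0 := by
    have := h 1 1
    rw [one_mul] at this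
    exact left_eq_add.mp this
  induction n with
  | zero => rw [pow_zero, zero_smul, h1]
  | succ n ih => rw [pow_succ, h, ih, succ_nsmul]

end General


/-! ### The hypotheses -/

universe uA uD uE uS uR

local notation "Qbar" => AlgebraicClosure ℚ
local notation "Γ" => (AlgebraicClosure ℚ ≃ₐ[ℚ] AlgebraicClosure ℚ)

/-- Occurrence of the eigensystem `(a_ℓ)_{good ℓ}`, `C` in a subgroup `S` of an abstract group `D` with
Hecke operators `TD ℓ`, `UD` (in the application: `D = κ̄((q))`, `S` = the `q`-expansions of the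
weight 2 level `M'` cusp forms mod `p`; or `D = S = Pic⁰(X₀(M')_{𝔽̄_p})`). -/
def SpOf {D : Type uD} [AddCommGroup D] (S : AddSubgroup D) (TD : Nat.Primes → Module.End ℤ D)
    (UD : Module.End ℤ D) (p : ℕ) (good : ℕ → Prop) (a : ℕ → ℤ) (C : Set (Polynomial ℤ)) : Prop :=
  ∃ g ∈ S, g ≠ 0 ∧ (p : ℤ) • g = 0 ∧ (∀ ℓ : Nat.Primes, good ℓ → TD ℓ g = a ℓ • g) ∧
    ∀ c ∈ C, Polynomial.aeval UD c g = 0

/-- **GLOBAL (char. 0)**: a degeneracy map `J₀(M' p) → J₀(M')` preserves the occurrence subgroups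
(i.e. commutes with `T_ℓ`, `ℓ ∤ M' p`, and with `U_2`). -/
def DegeneracyOK (U : UFamily) {M' p : ℕ} [NeZero M'] [NeZero (M' * p)]
    (π : JZero (M' * p) →+ JZero M') : Prop :=
  ∀ (good : ℕ → Prop) (a : ℕ → ℤ) (C : Set (Polynomial ℤ)),
    (∀ ℓ, good ℓ → ℓ.Prime ∧ ¬ ℓ ∣ M' * p) → ∀ x ∈ OccSub U (M' * p) p good a C,
      π x ∈ OccSub U M' p good a C

/-- **GLOBAL**: `E[p]` irreducible ⇒ the eigensystem is not Eisenstein at some good prime. -/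
def NonEisenstein : Prop :=
  ∀ (P : FreyPackage) (W : WeierstrassCurve ℤ) (L : ℕ), L ≠ 0 → W.IsIntegralModelOf P.freyCurve →
    GaloisRepIsIrreducible (K := AlgebraicClosure ℚ) ℚ P.freyCurve P.p →
    ∃ ℓ : Nat.Primes, Good W L ℓ ∧ ¬ (P.p : ℤ) ∣ W.apOfModel ℓ - ((ℓ : ℕ) + 1 : ℤ)

/-- **E-SIDE**: the structure of `E[p]` as a module over the inertia group at `p ∣ abc`. -/
structure ESideData (P : FreyPackage) [Fact P.p.Prime] where
  P₀ : FreyTors P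
  Q : FreyTors P
  span : ∀ T : FreyTors P, ∃ i k : ℕ, T = i • Q + k • P₀
  indep : ∀ k : ℕ, Q ≠ k • P₀
  ζ : Kbar P.p
  hζ : ζ ^ P.p = 1
  hζ1 : ζ ≠ 1
  w : oneUnits P.p
  c : Gp P.p → ℕ
  smul_P₀ : ∀ τ : Gp P.p, IsInertial P.p τ →
    localGaloisToGlobal P.p τ • P₀ = chiNat P.p τ • P₀
  smul_Q : ∀ τ : Gp P.p, IsInertial P.p τ → localGaloisToGlobal P.p τ • Q = Q + c τ • P₀
  smul_w : ∀ τ : Gp P.p, IsInertial P.p τ → τ • w = w * muP P.p ζ hζ ^ c τ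

/-- `J₀(N)(ℚ̄)[p]` (the Prelude's `Pic0.torsion`). -/
abbrev torsP (N p : ℕ) : AddSubgroup (JZero N) :=
  AlgebraicCurve.Pic0.torsion (AlgebraicClosure ℚ) (modularFunctionFieldBar N) p

theorem mem_torsP {N p : ℕ} {x : JZero N} : x ∈ torsP N p ↔ (p : ℤ) • x = 0 :=
  AlgebraicCurve.Pic0.mem_torsion

set_option linter.checkUnivs false in
/-- **LOCAL GEOMETRY** at `p` for the level `N = M' p`: everything NODE/PHI, RED/HECKE, TORIC and the
J-BRIDGE have to deliver, on one abstract group `A = J(ℚ̄_p)`.  `UN` is the `U_2`-operator on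
`J₀(N)(ℚ̄)`; `S ≤ D`, `TD`, `UD` the target of the detectors with its Hecke operators.  The bridge `j`
is only required on the `p`-torsion `J₀(N)(ℚ̄)[p]` (as T1A's `DictFinal`). -/
structure LocalGeom (p : ℕ) [Fact p.Prime] (N M' : ℕ) [NeZero N] [NeZero M']
    (π₁ π₂ : JZero N →+ JZero M') (UN : Module.End ℤ (JZero N)) {D : Type uD} [AddCommGroup D]
    (S : AddSubgroup D) (TD : Nat.Primes → Module.End ℤ D) (UD : Module.End ℤ D) where
  /-- the local points `J(ℚ̄_p)` -/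
  A : Type uA
  [instA : AddCommGroup A]
  [actA : DistribMulAction ↥(Ip p) A]
  /-- J-BRIDGE, on the `p`-torsion -/
  j : ↥(torsP N p) →+ A
  j_inj : Function.Injective j
  j_res : ∀ (τ : ↥(Ip p)) (x : JZero N) (hx : x ∈ torsP N p)
    (hx' : localGaloisToGlobal p (τ : Gp p) • x ∈ torsP N p), j ⟨_, hx'⟩ = τ • j ⟨x, hx⟩
  /-- the classes of points defined over a finite extension of `ℚ_p` -/
  Pt : AddSubgroup A
  j_Pt : ∀ x, j x ∈ Pt
  /-- NODE/PHI: `J0` = classes with `trop = 0` on the nose; `C` = the subgroup generated by the classes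
  of points with smooth reduction on the two sides -/
  J0 : AddSubgroup A
  sub_mem_J0 : ∀ τ : ↥(Ip p), ∀ x ∈ Pt, τ • x - x ∈ J0
  C : AddSubgroup A
  /-- v6: only needed for `y - t` with `y` a class of points and `t ∈ J1` (so that every class in
  sight is defined over a finite level; `J1` is declared below) -/
  J1 : AddSubgroup A
  phi : ∀ y ∈ Pt, ∀ t ∈ J1, (∀ τ : ↥(Ip p), τ • (y - t) = y - t) → ∃ z ∈ C, y - t - z ∈ J0
  /-- NODE/PHI: the residue vector `ρ P = (ord_e f̄_P mod p)_e` (report 997), `one = 𝟙` -/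
  R : Type uR
  [instR : AddCommGroup R]
  ρ : ↥(torsP N p) →+ R
  B : Nat.Primes → R →+ R
  one : R
  B_one : ∀ ℓ : Nat.Primes, ¬ (ℓ : ℕ) ∣ N → B ℓ one = ((ℓ : ℕ) + 1 : ℤ) • one
  ρ_T : ∀ ℓ : Nat.Primes, ¬ (ℓ : ℕ) ∣ N → ∀ (x : JZero N) (hx : x ∈ torsP N p)
    (hx' : heckeOperatorBar N ℓ x ∈ torsP N p), ρ ⟨_, hx'⟩ = B ℓ (ρ ⟨x, hx⟩)
  ρ_const : ∀ x : ↥(torsP N p), (∃ z ∈ C, j x - z ∈ J0) → ∃ s : ℤ, ρ x = s • one
  ρ_ker : ∀ x : ↥(torsP N p), (∃ z ∈ C, j x - z ∈ J0) → ρ x = 0 → j x ∈ J0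
  /-- RED: the kernel of reduction `J1` (declared above) -/
  J1_le : J1 ≤ J0
  sub_mem_J1 : ∀ τ : ↥(Ip p), ∀ x ∈ J0, τ • x - x ∈ J1
  /-- DETECTORS (the `q`-dlogs on the two sides) -/
  Side : Type uS
  δ : Side → ↥(torsP N p) →+ D
  δ_ker : ∀ x : ↥(torsP N p), j x ∈ J0 → (∀ i, δ i x = 0) → j x ∈ J1
  δ_hol : ∀ i (x : ↥(torsP N p)), j x ∈ J0 → δ i x ∈ S
  δ_T : ∀ (i : Side) (ℓ : Nat.Primes), ¬ (ℓ : ℕ) ∣ N → ∀ (x : JZero N) (hx : x ∈ torsP N p)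
    (hx' : heckeOperatorBar N ℓ x ∈ torsP N p), δ i ⟨_, hx'⟩ = TD ℓ (δ i ⟨x, hx⟩)
  δ_U : ∀ (i : Side) (x : JZero N) (hx : x ∈ torsP N p) (hx' : UN x ∈ torsP N p),
    δ i ⟨_, hx'⟩ = UD (δ i ⟨x, hx⟩)
  /-- TORIC: the toric map and the description of `ker β ∩ J1 ∩ A[p]` (`β = (π₁, π₂)`) -/
  E : Type uE
  ιT : (E → oneUnits p) → A
  ιT_mul : ∀ a b : E → oneUnits p, ιT (a * b) = ιT a + ιT b
  ιT_smul : ∀ (τ : ↥(Ip p)) (z : E → oneUnits p), ιT (fun e => (τ : Gp p) • z e) = τ • ιT z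
  ιT_mem : ∀ z, ιT z ∈ J1
  toric : ∀ (x : JZero N) (hx : x ∈ torsP N p), π₁ x = 0 → π₂ x = 0 → j ⟨x, hx⟩ ∈ J1 →
    ∃ z : E → oneUnits p, (∀ e, z e ^ p = 1) ∧ ιT z = j ⟨x, hx⟩

attribute [instance] LocalGeom.instA LocalGeom.actA LocalGeom.instR

/-! ### The chain -/

section Chain

variable {p : ℕ} [Fact p.Prime]

/-- `p`-torsion one-units are powers of a nontrivial `p`-th root of unity. -/
theorem exists_pow_eq_muP {ζ : Kbar p} (hζ : ζ ^ p = 1) (hζ1 : ζ ≠ 1) (u : oneUnits p)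
    (hu : u ^ p = 1) : ∃ k : ℕ, u = muP p ζ hζ ^ k := by
  have hp : p.Prime := Fact.out
  have hord : orderOf ζ = p := orderOf_eq_prime hζ hζ1
  have hprim : IsPrimitiveRoot ζ p := by
    have h := IsPrimitiveRoot.orderOf ζ
    rwa [hord] at h
  have hu' : ((u : (Kbar p)ˣ) : Kbar p) ^ p = 1 := by
    rw [← coe_pow, hu]; rfl
  have : NeZero p := ⟨hp.ne_zero⟩
  obtain ⟨i, -, hi⟩ := hprim.eq_pow_of_pow_eq_one hu'
  exact ⟨i, oneUnits.ext p (by rw [coe_pow, coe_muP, hi])⟩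

/-- The Galois group acts on `p`-torsion one-units through `χ`. -/
theorem smul_eq_pow_of_pow_eq_one (τ : Gp p) (u : oneUnits p) (hu : u ^ p = 1) :
    τ • u = u ^ chiNat p τ := by
  have hu' : ((u : (Kbar p)ˣ) : Kbar p) ^ p = 1 := by rw [← coe_pow, hu]; rfl
  have h : u = muP p _ hu' := oneUnits.ext p (by rw [coe_muP])
  rw [h]
  exact smul_muP p τ _ hu'

variable {N M' : ℕ} [NeZero N] [NeZero M'] {π₁ π₂ : JZero N →+ JZero M'}
  {UN : Module.End ℤ (JZero N)} {D : Type uD} [AddCommGroup D] {S : AddSubgroup D}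
  {TD : Nat.Primes → Module.End ℤ D} {UD : Module.End ℤ D}
  (G : LocalGeom.{uA, uD, uE, uS, uR} p N M' π₁ π₂ UN S TD UD)

/-- A `χ`-eigenvector killed by `p`, class of points, lies in `J1` (`p` odd). -/
theorem LocalGeom.mem_J1_of_chi (hp2 : p ≠ 2) {x : G.A} (hxPt : x ∈ G.Pt) (hxp : p • x = 0)
    (hx : ∀ τ : ↥(Ip p), τ • x = chiNat p (τ : Gp p) • x) : x ∈ G.J1 := by
  obtain ⟨τ₀', hτ₀, m, hm⟩ := exists_inertial_mul_modEq p hp2
  obtain ⟨τ₀, rfl⟩ : ∃ τ₀ : ↥(Ip p), (τ₀ : Gp p) = τ₀' := ⟨⟨τ₀', (mem_Ip p).2 hτ₀⟩, rfl⟩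
  have key : x = m • (τ₀ • x - x) := eq_nsmul_sub_of_modEq hxp (hx τ₀) hm
  have h0 : x ∈ G.J0 := by
    rw [key]
    exact G.J0.nsmul_mem (G.sub_mem_J0 τ₀ x hxPt) m
  rw [key]
  exact G.J1.nsmul_mem (G.sub_mem_J1 τ₀ x h0) m

/-- Inertia acts through `χ` on `j (ker β) ∩ J1`. -/
theorem LocalGeom.smul_eq_of_mem_J1 {x : JZero N} (hx : x ∈ torsP N p) (h1 : π₁ x = 0)
    (h2 : π₂ x = 0) (hJ1 : G.j ⟨x, hx⟩ ∈ G.J1) (τ : ↥(Ip p)) :
    τ • G.j ⟨x, hx⟩ = chiNat p (τ : Gp p) • G.j ⟨x, hx⟩ := by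
  obtain ⟨z, hz, hzx⟩ := G.toric x hx h1 h2 hJ1
  rw [← hzx, ← G.ιT_smul τ z]
  have h : (fun e => (τ : Gp p) • z e) = z ^ chiNat p (τ : Gp p) := by
    funext e
    rw [Pi.pow_apply]
    exact smul_eq_pow_of_pow_eq_one (τ : Gp p) (z e) (hz e)
  rw [h, map_pow_of_map_mul G.ιT G.ιT_mul]

/-- **The `Φ`-step in residue form** (helper45's `PhiRes.mem_of_residue`, on `J₀(N)(ℚ̄)[p]`): a
`p`-torsion `T_ℓ`-eigenclass, non-Eisenstein at `ℓ`, congruent to an element of `C` modulo `J0`,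
lies in `J0`. -/
theorem LocalGeom.mem_J0_of_residue {x : JZero N} (hx : x ∈ torsP N p) (ℓ : Nat.Primes)
    (hℓN : ¬ (ℓ : ℕ) ∣ N) {a : ℤ} (hT : heckeOperatorBar N ℓ x = a • x)
    (hne : ¬ (p : ℤ) ∣ a - ((ℓ : ℕ) + 1 : ℤ))
    (hC : ∃ z ∈ G.C, G.j ⟨x, hx⟩ - z ∈ G.J0) : G.j ⟨x, hx⟩ ∈ G.J0 := by
  have hp : p.Prime := Fact.out
  obtain ⟨s, hs⟩ := G.ρ_const ⟨x, hx⟩ hC
  refine G.ρ_ker ⟨x, hx⟩ hC ?_
  have hx' : heckeOperatorBar N ℓ x ∈ torsP N p := by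
    rw [hT]
    exact (torsP N p).zsmul_mem hx _
  have h1 : a • G.ρ ⟨x, hx⟩ = ((ℓ : ℕ) + 1 : ℤ) • G.ρ ⟨x, hx⟩ := by
    have e1 : (⟨heckeOperatorBar N ℓ x, hx'⟩ : ↥(torsP N p)) = a • ⟨x, hx⟩ := Subtype.ext hT
    calc a • G.ρ ⟨x, hx⟩ = G.ρ (a • ⟨x, hx⟩) := (map_zsmul _ _ _).symm
      _ = G.ρ ⟨heckeOperatorBar N ℓ x, hx'⟩ := by rw [e1]
      _ = G.B ℓ (G.ρ ⟨x, hx⟩) := G.ρ_T ℓ hℓN x hx hx'
      _ = G.B ℓ (s • G.one) := by rw [hs]
      _ = s • (((ℓ : ℕ) + 1 : ℤ) • G.one) := by rw [map_zsmul, G.B_one ℓ hℓN]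
      _ = ((ℓ : ℕ) + 1 : ℤ) • G.ρ ⟨x, hx⟩ := by rw [hs, smul_comm]
  have h2 : (a - ((ℓ : ℕ) + 1 : ℤ)) • G.ρ ⟨x, hx⟩ = 0 := by rw [sub_smul, h1, sub_self]
  have h3 : p • G.ρ ⟨x, hx⟩ = 0 := by
    rw [← map_nsmul]
    have : p • (⟨x, hx⟩ : ↥(torsP N p)) = 0 := by
      apply Subtype.ext
      have := mem_torsP.1 hx
      rw [natCast_zsmul] at this
      exact this
    rw [this, _root_.map_zero]
  exact Fermat.Agent.T1B.Node45.PhiRes.eq_zero_of_smul_eq_zero hp hne h3 h2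

include G in
/-- **The chain.**  An injective additive map `ι₀ : VE → J₀(N)(ℚ̄)` with image in `ker π₁ ∩ ker π₂`,
killed by `p`, Hecke-eigen, non-Eisenstein, whose source has the `E`-side structure, gives an
occurrence in `S`. -/
theorem LocalGeom.spOf (hp2 : p ≠ 2) {VE : Type*} [AddCommGroup VE] (ι₀ : VE →+ JZero N)
    (hι₀ : Function.Injective ι₀) (hπ₁ : ∀ x, π₁ (ι₀ x) = 0) (hπ₂ : ∀ x, π₂ (ι₀ x) = 0)
    (hι₀p : ∀ x, (p : ℤ) • ι₀ x = 0)
    (good : ℕ → Prop) (hgood : ∀ ℓ : Nat.Primes, good ℓ → ¬ (ℓ : ℕ) ∣ N) (a : ℕ → ℤ)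
    (C : Set (Polynomial ℤ))
    (hT : ∀ ℓ : Nat.Primes, good ℓ → ∀ x, heckeOperatorBar N ℓ (ι₀ x) = a ℓ • ι₀ x)
    (hU : ∀ c ∈ C, ∀ x, Polynomial.aeval UN c (ι₀ x) = 0)
    (ℓ₀ : Nat.Primes) (hℓ₀ : good ℓ₀) (hne : ¬ (p : ℤ) ∣ a ℓ₀ - ((ℓ₀ : ℕ) + 1 : ℤ))
    (P₀ Q : VE) (hspan : ∀ T : VE, ∃ i k : ℕ, T = i • Q + k • P₀) (hindep : ∀ k : ℕ, Q ≠ k • P₀)
    (c : Gp p → ℕ)
    (hP₀ : ∀ τ : Gp p, IsInertial p τ →
      localGaloisToGlobal p τ • ι₀ P₀ = chiNat p τ • ι₀ P₀)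
    (hQ : ∀ τ : Gp p, IsInertial p τ → localGaloisToGlobal p τ • ι₀ Q = ι₀ Q + c τ • ι₀ P₀)
    {ζ : Kbar p} (hζ : ζ ^ p = 1) (hζ1 : ζ ≠ 1) (w : oneUnits p)
    (hw : ∀ τ : Gp p, IsInertial p τ → τ • w = w * muP p ζ hζ ^ c τ) :
    SpOf S TD UD p good a C := by
  have hp : p.Prime := Fact.out
  have hmem : ∀ x, ι₀ x ∈ torsP N p := fun x => mem_torsP.2 (hι₀p x)
  obtain ⟨φ, hφapp⟩ : ∃ φ : VE →+ G.A, ∀ x, φ x = G.j ⟨ι₀ x, hmem x⟩ :=
    ⟨G.j.comp (ι₀.codRestrict (torsP N p) hmem), fun x => rfl⟩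
  have hφ : Function.Injective φ := by
    intro x y hxy
    rw [hφapp, hφapp] at hxy
    have h1 := G.j_inj hxy
    exact hι₀ (congrArg Subtype.val h1)
  have hφp' : ∀ x, p • φ x = 0 := fun x => by
    rw [← map_nsmul]
    have : p • x = 0 := by
      apply hι₀
      rw [map_nsmul, _root_.map_zero, ← natCast_zsmul]
      exact hι₀p x
    rw [this, _root_.map_zero]
  have hφres : ∀ (τ : ↥(Ip p)) (x y : VE), localGaloisToGlobal p (τ : Gp p) • ι₀ x = ι₀ y →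
      τ • φ x = φ y := by
    intro τ x y hxy
    have hx' : localGaloisToGlobal p (τ : Gp p) • ι₀ x ∈ torsP N p := by rw [hxy]; exact hmem y
    rw [hφapp, ← G.j_res τ (ι₀ x) (hmem x) hx', hφapp]
    congr 1
    exact Subtype.ext hxy
  have hin : ∀ τ : ↥(Ip p), IsInertial p (τ : Gp p) := fun τ => (mem_Ip p).1 τ.2
  have hφP₀ : ∀ τ : ↥(Ip p), τ • φ P₀ = chiNat p (τ : Gp p) • φ P₀ := fun τ => by
    rw [hφres τ P₀ (chiNat p (τ : Gp p) • P₀) (by rw [hP₀ _ (hin τ), map_nsmul]), map_nsmul]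
  have hφQ : ∀ τ : ↥(Ip p), τ • φ Q = φ Q + c (τ : Gp p) • φ P₀ := fun τ => by
    rw [hφres τ Q (Q + c (τ : Gp p) • P₀) (by rw [hQ _ (hin τ), map_add, map_nsmul]), map_add,
      map_nsmul]
  -- Step 1: the `χ`-line lies in `J1`
  have hx₀1 : φ P₀ ∈ G.J1 :=
    G.mem_J1_of_chi hp2 (by rw [hφapp]; exact G.j_Pt _) (hφp' P₀) hφP₀
  -- Step 2: it is toric
  obtain ⟨z, hz, hzx⟩ := G.toric (ι₀ P₀) (hmem P₀) (hπ₁ P₀) (hπ₂ P₀)
    (by rw [← hφapp]; exact hx₀1)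
  choose me hme using fun e => exists_pow_eq_muP hζ hζ1 (z e) (hz e)
  -- Step 3: the toric correction
  set t : G.A := G.ιT (fun e => w ^ me e) with ht
  have ht1 : t ∈ G.J1 := G.ιT_mem _
  have hfix : ∀ τ : ↥(Ip p), τ • (φ Q - t) = φ Q - t := by
    intro τ
    have h1 : (fun e => (τ : Gp p) • (w ^ me e)) = (fun e => w ^ me e) * z ^ c (τ : Gp p) := by
      funext e
      rw [Pi.mul_apply, Pi.pow_apply, smul_pow', hw _ (hin τ), mul_pow, hme e, ← pow_mul, ← pow_mul,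
        mul_comm (c (τ : Gp p))]
    rw [smul_sub, hφQ τ, ht, ← G.ιT_smul τ, h1, G.ιT_mul,
      map_pow_of_map_mul G.ιT G.ιT_mul, hzx, ← hφapp]
    abel
  -- Step 4: every element of the image is congruent to an element of `C` modulo `J0`
  have hVC : ∀ T : VE, ∃ z ∈ G.C, φ T - z ∈ G.J0 := by
    intro T
    obtain ⟨i, k, rfl⟩ := hspan T
    have hfix' : ∀ τ : ↥(Ip p), τ • (i • (φ Q - t)) = i • (φ Q - t) := by
      intro τ
      rw [smul_comm, hfix τ]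
    have hyPt : i • φ Q ∈ G.Pt := G.Pt.nsmul_mem (by rw [hφapp]; exact G.j_Pt _) i
    rw [smul_sub] at hfix'
    obtain ⟨z', hz', hyz⟩ := G.phi (i • φ Q) hyPt (i • t) (G.J1.nsmul_mem ht1 i) hfix'
    refine ⟨z', hz', ?_⟩
    have e : φ (i • Q + k • P₀) - z' = (i • φ Q - i • t - z') + (i • t + k • φ P₀) := by
      rw [map_add, map_nsmul, map_nsmul]
      abel
    rw [e]
    exact G.J0.add_mem hyz (G.J0.add_mem (G.J0.nsmul_mem (G.J1_le ht1) i)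
      (G.J0.nsmul_mem (G.J1_le hx₀1) k))
  -- Step 5: the `Φ`-step (residue form)
  have hVJ0 : ∀ T : VE, φ T ∈ G.J0 := by
    intro T
    rw [hφapp]
    refine G.mem_J0_of_residue (hmem T) ℓ₀ (hgood ℓ₀ hℓ₀) (hT ℓ₀ hℓ₀ T) hne ?_
    rw [← hφapp]
    exact hVC T
  have hQ0 : G.j ⟨ι₀ Q, hmem Q⟩ ∈ G.J0 := by rw [← hφapp]; exact hVJ0 Q
  -- Step 6: some detector does not vanish at `Q`
  obtain ⟨i, hi⟩ : ∃ i, G.δ i ⟨ι₀ Q, hmem Q⟩ ≠ 0 := by
    by_contra hcon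
    push Not at hcon
    have hQ1 : G.j ⟨ι₀ Q, hmem Q⟩ ∈ G.J1 := G.δ_ker ⟨ι₀ Q, hmem Q⟩ hQ0 hcon
    obtain ⟨τ₀', hτ₀, m, hm⟩ := exists_inertial_mul_modEq p hp2
    obtain ⟨τ₀, rfl⟩ : ∃ τ₀ : ↥(Ip p), (τ₀ : Gp p) = τ₀' := ⟨⟨τ₀', (mem_Ip p).2 hτ₀⟩, rfl⟩
    have hχ : τ₀ • φ Q = chiNat p (τ₀ : Gp p) • φ Q := by
      rw [hφapp]
      exact G.smul_eq_of_mem_J1 (hmem Q) (hπ₁ Q) (hπ₂ Q) hQ1 τ₀
    have key : φ Q = m • (τ₀ • φ Q - φ Q) := eq_nsmul_sub_of_modEq (hφp' Q) hχ hm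
    rw [hφQ τ₀, add_sub_cancel_left, ← map_nsmul, ← map_nsmul, ← mul_smul] at key
    exact hindep _ (hφ key)
  -- Step 7: `g := δ i Q` is a `p`-torsion eigenvector in `S`
  refine ⟨G.δ i ⟨ι₀ Q, hmem Q⟩, G.δ_hol i _ hQ0, hi, ?_, fun ℓ hℓ => ?_, fun c hc => ?_⟩
  · rw [← map_zsmul]
    have : (p : ℤ) • (⟨ι₀ Q, hmem Q⟩ : ↥(torsP N p)) = 0 := Subtype.ext (hι₀p Q)
    rw [this, _root_.map_zero]
  · have hTx : heckeOperatorBar N ℓ (ι₀ Q) ∈ torsP N p := by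
      rw [hT ℓ hℓ Q]
      exact (torsP N p).zsmul_mem (hmem Q) _
    rw [← G.δ_T i ℓ (hgood ℓ hℓ) (ι₀ Q) (hmem Q) hTx, ← map_zsmul]
    congr 1
    exact Subtype.ext (hT ℓ hℓ Q)
  · -- polynomials in `UN` on the `p`-torsion
    have hstab : ∀ x ∈ torsP N p, UN x ∈ torsP N p := by
      intro x hx
      rw [mem_torsP, ← map_zsmul, mem_torsP.1 hx, _root_.map_zero]
    obtain ⟨h, hh⟩ := aeval_restrict_intertwine (torsP N p) (G.δ i) UN UD hstab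
      (fun x hx => G.δ_U i x hx (hstab x hx)) c (ι₀ Q) (hmem Q)
    rw [← hh]
    have h0 : (⟨_, h⟩ : ↥(torsP N p)) = 0 := Subtype.ext (hU c hc Q)
    rw [h0, _root_.map_zero]

end Chain

/-! ### `LOCAL44` -/

/-- **`LOCAL44` from the hypotheses.** -/
theorem local44 (U : UFamily) {D : ℕ → ℕ → Type uD} [∀ p M, AddCommGroup (D p M)]
    (S : ∀ p M, AddSubgroup (D p M)) (TD : ∀ p M, Nat.Primes → Module.End ℤ (D p M))
    (UD : ∀ p M, Module.End ℤ (D p M))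
    (π₁ π₂ : ∀ (M' p : ℕ) [NeZero M'] [NeZero (M' * p)], JZero (M' * p) →+ JZero M')
    (hπ₁ : ∀ (M' p : ℕ) [NeZero M'] [NeZero (M' * p)], DegeneracyOK U (π₁ M' p))
    (hπ₂ : ∀ (M' p : ℕ) [NeZero M'] [NeZero (M' * p)], DegeneracyOK U (π₂ M' p))
    (hne : NonEisenstein)
    (hE : ∀ (P : FreyPackage) [Fact P.p.Prime], (P.p : ℤ) ∣ P.a * P.b * P.c →
      Nonempty (ESideData P))
    (hG : ∀ (p : ℕ) [Fact p.Prime] (m : ℕ) [NeZero (4 * m * p)] [NeZero (4 * m)], 5 ≤ p → 0 < m →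
      ¬ 2 ∣ m → Squarefree m → ¬ p ∣ m →
      Nonempty (LocalGeom.{uA, uD, uE, uS, uR} p (4 * m * p) (4 * m) (π₁ (4 * m) p) (π₂ (4 * m) p)
        (U (4 * m * p)) (S p (4 * m)) (TD p (4 * m)) (UD p (4 * m)))) :
    LOCAL44 U (fun P m W C =>
      SpOf (S P.p (4 * m)) (TD P.p (4 * m)) (UD P.p (4 * m)) P.p (Good W (4 * m * P.p))
        (fun ℓ => W.apOfModel ℓ) C) := by
  intro P m _ _ hyp W hW C hemb
  obtain ⟨ι, hι_inj, hι_eq, hι_occ⟩ := hemb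
  have : Fact P.p.Prime := ⟨P.pp⟩
  have hp5 := P.hp5
  have hgoodN : ∀ ℓ, Good W (4 * m * P.p) ℓ → ℓ.Prime ∧ ¬ ℓ ∣ 4 * m * P.p :=
    fun ℓ hℓ => ⟨hℓ.1, hℓ.2.2⟩
  by_cases h : ∃ x, π₁ (4 * m) P.p (ι x) ≠ 0 ∨ π₂ (4 * m) P.p (ι x) ≠ 0
  · left
    obtain ⟨x, hx | hx⟩ := h
    · exact ⟨_, hπ₁ (4 * m) P.p _ _ C hgoodN _ (hι_occ x), hx⟩
    · exact ⟨_, hπ₂ (4 * m) P.p _ _ C hgoodN _ (hι_occ x), hx⟩
  · right
    push Not at h
    obtain ⟨G⟩ := hG P.p m hp5 hyp.pos hyp.odd hyp.sqfree hyp.not_dvd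
    obtain ⟨Dt⟩ := hE P hyp.p_dvd
    obtain ⟨ℓ₀, hℓ₀, hne₀⟩ := hne P W (4 * m * P.p) (NeZero.ne _) hW hyp.irr
    exact G.spOf (by omega) ι hι_inj (fun x => (h x).1) (fun x => (h x).2)
      (fun x => (hι_occ x).1) (Good W (4 * m * P.p)) (fun ℓ hℓ => hℓ.2.2)
      (fun ℓ => W.apOfModel ℓ) C (fun ℓ hℓ x => (hι_occ x).2.1 ℓ hℓ)
      (fun c hc x => (hι_occ x).2.2 c hc) ℓ₀ hℓ₀ hne₀ Dt.P₀ Dt.Q Dt.span Dt.indep Dt.c
      (fun τ hτ => by rw [← hι_eq, Dt.smul_P₀ τ hτ, map_nsmul])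
      (fun τ hτ => by rw [← hι_eq, Dt.smul_Q τ hτ, map_add, map_nsmul])
      Dt.hζ Dt.hζ1 Dt.w Dt.smul_w

end Fermat.Agent.T1B.Local66.Assembly
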