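/-
Programme T1B (row 38 via S44), brick `LOCAL44-ASM` / GLUE (helper66): THE CONSTRUCTOR OF
`Local66.Assembly.LocalGeom` ON THE CONCRETE OBJECTS.

Fixed: `K` (number field, inertia of `padicPlace p` fixes it: `hK`), `c0 : TwoChart (Wb p K) B0 B1 B01`,
a compatible family `P00 E ≤ Pic X_{O_E}` (`hPP`) containing the `J̃¹(O_E)` (`hJP`).  Then

  `A := Atop p K c0`,  `actA := Bridge54.IpInst.actTop c0 hK`,  `Pt := Objects.PtTop c0`,
  `J0 := Objects.J0top c0 P00 hPP`,  `J1 := Objects.J1top c0 P00 hPP`,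
  `C := Objects.JextTop c0`  (v2, helper45's proposal: the classes which extend to some `O_E`; then
  `(∃ z ∈ C, y - z ∈ J0) ↔ y ∈ JextTop`, so `phi`, `ρ_const`, `ρ_ker` are stated with `∈ JextTop c0`),

the fields `J1_le`, `sub_mem_J1` are discharged here (`Objects.J1top_le_J0top`, `Objects.sub_mem_J1top`)
and `localGeom_of_fields` takes ALL THE OTHER fields of `LocalGeom` as hypotheses, stated on these
concrete objects: this is the exact list of statements the cells have to deliver.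
-/
import Mathlib
import Fermat.Agent.T1B.Local66.Assembly
import Fermat.Agent.T1B.Local66.Objects

set_option autoImplicit false
set_option linter.unusedSectionVars false
set_option linter.style.haveILetI false
set_option synthInstance.maxHeartbeats 400000
set_option maxHeartbeats 1000000

open Fermat.Agent.TW.B5.Iface Fermat.Agent.RED.Interface4 Fermat.Agent.T1.HubInst98
open Fermat.Agent.T1.IntSub47 Fermat.Agent.Jac Fermat.Agent.T1.RedIface75
open Fermat.Agent.T1B.Local66.LocalBase Fermat.Agent.T1B.Local66.Union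
open Fermat.Agent.T1B.Local66.Objects Fermat.Agent.T1B.Local66.Assembly
open Fermat.Agent.T1B.Plumb66.Inertia (Ip mem_Ip)
open Fermat.Agent.T1B.Plumb66.OneUnits
open Fermat.Agent.T1B.Bridge54.IpAction Fermat.Agent.T1B.Bridge54.IpInst
open Fermat.Agent.T1B.Bridge54.IpUnion
open Fermat.Agent.ES.P36.InertField27 (InertFixed)
open ModularCurve

noncomputable section

namespace Fermat.Agent.T1B.Local66.Glue

universe uD uE uS uR

variable {p : ℕ} [Fact p.Prime] {K : IntermediateField ℚ Qbar} [Nonempty (NLevel p K)]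
  {B0 B1 B01 : Type} [CommRing B0] [CommRing B1] [CommRing B01]
  [Algebra (Wb p K) B0] [Algebra (Wb p K) B1] [Algebra (Wb p K) B01] [Algebra B0 B01]
  [Algebra B1 B01] [IsScalarTower (Wb p K) B0 B01] [IsScalarTower (Wb p K) B1 B01]
  (c0 : TwoChart (Wb p K) B0 B1 B01)
  {N M' : ℕ} [NeZero N] [NeZero M'] {π₁ π₂ : JZero N →+ JZero M'}
  {UN : Module.End ℤ (JZero N)} {D : Type uD} [AddCommGroup D] {S : AddSubgroup D}
  {TD : Nat.Primes → Module.End ℤ D} {UD : Module.End ℤ D}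

/-- `(∃ z ∈ JextTop, y - z ∈ J0) → y ∈ JextTop`. -/
theorem mem_JextTop_of_exists (P00 : ∀ E : NLevel p K, Subgroup (PicO c0 E))
    (hPP : Compatible c0 P00) {y : Atop p K c0}
    (h : ∃ z ∈ JextTop c0, y - z ∈ J0top c0 P00 hPP) : y ∈ JextTop c0 := by
  obtain ⟨z, hz, hyz⟩ := h
  have : y = z + (y - z) := by abel
  rw [this]
  exact (JextTop c0).add_mem hz (J0top_le_JextTop c0 P00 hPP hyz)

set_option linter.checkUnivs false in
/-- **The constructor of `LocalGeom` on the concrete objects.** -/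
def localGeom_of_fields (hK : InertFixed (padicPlace p) K)
    (P00 : ∀ E : NLevel p K, Subgroup (PicO c0 E)) (hPP : Compatible c0 P00)
    (hJP : ∀ E, J1Fam c0 E ≤ P00 E)
    -- J-BRIDGE
    (j : ↥(torsP N p) →+ Atop p K c0) (j_inj : Function.Injective j)
    (j_res : letI := actTop c0 hK
      ∀ (τ : ↥(Ip p)) (x : JZero N) (hx : x ∈ torsP N p)
        (hx' : localGaloisToGlobal p (τ : Gp p) • x ∈ torsP N p), j ⟨_, hx'⟩ = τ • j ⟨x, hx⟩)
    (j_Pt : ∀ x, j x ∈ PtTop c0)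
    -- NODE / PHI
    (sub_mem_J0 : letI := actTop c0 hK
      ∀ τ : ↥(Ip p), ∀ x ∈ PtTop c0, τ • x - x ∈ J0top c0 P00 hPP)
    (phi : letI := actTop c0 hK
      ∀ y ∈ PtTop c0, ∀ t ∈ J1top c0 P00 hPP, (∀ τ : ↥(Ip p), τ • (y - t) = y - t) →
        y - t ∈ JextTop c0)
    -- RESIDUES (R1, R2)
    (R : Type uR) [AddCommGroup R] (ρ : ↥(torsP N p) →+ R) (B : Nat.Primes → R →+ R) (one : R)
    (B_one : ∀ ℓ : Nat.Primes, ¬ (ℓ : ℕ) ∣ N → B ℓ one = ((ℓ : ℕ) + 1 : ℤ) • one)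
    (ρ_T : ∀ ℓ : Nat.Primes, ¬ (ℓ : ℕ) ∣ N → ∀ (x : JZero N) (hx : x ∈ torsP N p)
      (hx' : heckeOperatorBar N ℓ x ∈ torsP N p), ρ ⟨_, hx'⟩ = B ℓ (ρ ⟨x, hx⟩))
    (ρ_const : ∀ x : ↥(torsP N p), j x ∈ JextTop c0 → ∃ s : ℤ, ρ x = s • one)
    (ρ_ker : ∀ x : ↥(torsP N p), j x ∈ JextTop c0 → ρ x = 0 → j x ∈ J0top c0 P00 hPP)
    -- DETECTORS
    (Side : Type uS) (δ : Side → ↥(torsP N p) →+ D)
    (δ_ker : ∀ x : ↥(torsP N p), j x ∈ J0top c0 P00 hPP → (∀ i, δ i x = 0) →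
      j x ∈ J1top c0 P00 hPP)
    (δ_hol : ∀ i (x : ↥(torsP N p)), j x ∈ J0top c0 P00 hPP → δ i x ∈ S)
    (δ_T : ∀ (i : Side) (ℓ : Nat.Primes), ¬ (ℓ : ℕ) ∣ N → ∀ (x : JZero N) (hx : x ∈ torsP N p)
      (hx' : heckeOperatorBar N ℓ x ∈ torsP N p), δ i ⟨_, hx'⟩ = TD ℓ (δ i ⟨x, hx⟩))
    (δ_U : ∀ (i : Side) (x : JZero N) (hx : x ∈ torsP N p) (hx' : UN x ∈ torsP N p),
      δ i ⟨_, hx'⟩ = UD (δ i ⟨x, hx⟩))
    -- TORIC / CMP
    (E : Type uE) (ιT : (E → oneUnits p) → Atop p K c0)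
    (ιT_mul : ∀ a b : E → oneUnits p, ιT (a * b) = ιT a + ιT b)
    (ιT_smul : letI := actTop c0 hK
      ∀ (τ : ↥(Ip p)) (z : E → oneUnits p), ιT (fun e => (τ : Gp p) • z e) = τ • ιT z)
    (ιT_mem : ∀ z, ιT z ∈ J1top c0 P00 hPP)
    (toric : ∀ (x : JZero N) (hx : x ∈ torsP N p), π₁ x = 0 → π₂ x = 0 →
      j ⟨x, hx⟩ ∈ J1top c0 P00 hPP →
      ∃ z : E → oneUnits p, (∀ e, z e ^ p = 1) ∧ ιT z = j ⟨x, hx⟩) :
    LocalGeom.{1, uD, uE, uS, uR} p N M' π₁ π₂ UN S TD UD where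
  A := Atop p K c0
  instA := inferInstance
  actA := actTop c0 hK
  j := j
  j_inj := j_inj
  j_res := j_res
  Pt := PtTop c0
  j_Pt := j_Pt
  J0 := J0top c0 P00 hPP
  sub_mem_J0 := sub_mem_J0
  C := JextTop c0
  J1 := J1top c0 P00 hPP
  phi := fun y hy t ht hfix =>
    ⟨y - t, phi y hy t ht hfix, by rw [sub_self]; exact (J0top c0 P00 hPP).zero_mem⟩
  R := R
  ρ := ρ
  B := B
  one := one
  B_one := B_one
  ρ_T := ρ_T
  ρ_const := fun x hx => ρ_const x (mem_JextTop_of_exists c0 P00 hPP hx)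
  ρ_ker := fun x hx => ρ_ker x (mem_JextTop_of_exists c0 P00 hPP hx)
  J1_le := J1top_le_J0top c0 P00 hPP
  sub_mem_J1 := fun τ _ hx => sub_mem_J1top c0 P00 hPP hK hJP τ hx
  Side := Side
  δ := δ
  δ_ker := δ_ker
  δ_hol := δ_hol
  δ_T := δ_T
  δ_U := δ_U
  E := E
  ιT := ιT
  ιT_mul := ιT_mul
  ιT_smul := ιT_smul
  ιT_mem := ιT_mem
  toric := toric

end Fermat.Agent.T1B.Local66.Glue
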