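/-
Programme T1B (row 38 via S44), J-BRIDGE (helper66): THE BRIDGE `j : J₀(N)(ℚ̄)[p] → A = Pic X_{ℚ̄_p}`.

Inputs: helper39's dictionary (`Bridge39.ChartIsoFamilyN`, `TorsSec`, `Fam.d S L hle`), helper54's
number-field plumbing (`Bridge54.IpRes.bcL`, `bridge_res_L`), helper43's EXT-INJ-FIELD, helper93's
level maps (`ADPe93.Inst.toEh`).

* `jTop c0 Fam S : ↥(torsP N p) →+ Atop p K c0`,  `x ↦ ofMul (bcL (d_{L₀} x))`;
* `jTop_eq_level` : `jTop x = ofMul (bcL (d_L x))` for every finite normal `L ⊇ L₀`;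
* `jTop_eq_bcE`   : `jTop x = ofMul (bcE E (toEh E (d_{E.L} x)))` for every level `E` with `L₀ ≤ E.L`
  (= the field `hj` of `ADPe93.Assembly.Completion`);
* `jTop_injective` (= `LocalGeom.j_inj`; hypotheses: `Nontrivial (ℚ̄_p ⊗[W] B0)`,
  `H0Const (c0.baseChange ℚ̄_p)`);
* `jTop_res` (= `LocalGeom.j_res` for `actA := actTop c0 hK`);
* `jTop_mem_PtTop` (= `LocalGeom.j_Pt` for `Pt := Objects.PtTop c0`);
* `jTop_mem_unionSub_of_alg` : if `d_{E.L} x` extends to a class `y` over `O_L = A ∩ L` whose image over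
  `O_E` lies in `P E`, then `jTop x ∈ unionSub c0 P hP` (AD-CONVERSE).
-/
import Mathlib
import Fermat.Agent.T1B.Bridge39.Final
import Fermat.Agent.T1B.Bridge54.IpRes
import Fermat.Agent.T1B.Bridge43.ExtInjField
import Fermat.Agent.T1B.ADPe93.Inst
import Fermat.Agent.T1B.Local66.Objects
import Fermat.Agent.T1B.Local66.Assembly

set_option autoImplicit false
set_option linter.unusedSectionVars false
set_option linter.style.haveILetI false
set_option synthInstance.maxHeartbeats 400000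
set_option maxHeartbeats 1000000

open Fermat.Agent.TW.B5.Iface Fermat.Agent.RED.Interface4 Fermat.Agent.T1.HubInst98
open Fermat.Agent.T1.IntSub47 Fermat.Agent.Jac Fermat.Agent.T1.RedIface75 Fermat.Agent.T1.Red11
open Fermat.Agent.T1.PtLine75 Fermat.Agent.T1.GalAct44 Fermat.Agent.T1.CentresClass47
open Fermat.Agent.Jac.BaseChange75
open scoped Fermat.Agent.Jac.BaseChange75
open Fermat.Agent.T1B.Local66.LocalBase Fermat.Agent.T1B.Local66.Union
open Fermat.Agent.T1B.Local66.Objects Fermat.Agent.T1B.Local66.Assembly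
open Fermat.Agent.T1B.Plumb66.Inertia (Ip mem_Ip)
open Fermat.Agent.T1B.Bridge54.IpAction Fermat.Agent.T1B.Bridge54.IpInst
open Fermat.Agent.T1B.Bridge54.IpRes Fermat.Agent.T1B.Bridge39
open Fermat.Agent.T1B.ADPe93.Inst (toEh toOh genL PicOL)
open Fermat.Agent.T1B.AD69.Concrete (algKE)
open Fermat.Agent.ES.P36.InertField27 (InertFixed)
open ModularCurve AlgebraicCurve TensorProduct

noncomputable section

namespace Fermat.Agent.T1B.Local66.Bridge

variable {p : ℕ} [Fact p.Prime] {K : IntermediateField ℚ Qbar} {N : ℕ} [NeZero N]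
  {B0 B1 B01 : Type} [CommRing B0] [CommRing B1] [CommRing B01]
  [Algebra (Wb p K) B0] [Algebra (Wb p K) B1] [Algebra (Wb p K) B01] [Algebra B0 B01]
  [Algebra B1 B01] [IsScalarTower (Wb p K) B0 B01] [IsScalarTower (Wb p K) B1 B01]
  (c0 : TwoChart (Wb p K) B0 B1 B01)
  (Fam : ChartIsoFamilyN (padicPlace p) N K c0) (S : TorsSec N K p)

/-- The level of the base field `L₀` of the torsion section. -/
def level₀ : NLevel p K :=
  haveI := S.fin₀
  haveI := S.normal₀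
  NLevel.ofField S.L₀ S.le₀

/-- **The bridge** `j : J₀(N)(ℚ̄)[p] → Pic X_{ℚ̄_p}`. -/
def jTop : ↥(torsP N p) →+ Atop p K c0 :=
  haveI := S.fin₀
  haveI := S.normal₀
  { toFun := fun x => Additive.ofMul (bcL c0 S.le₀ (Fam.d S S.L₀ le_rfl x))
    map_zero' := by
      rw [ChartIsoFamilyN.d_zero, map_one]
      rfl
    map_add' := fun x y => by
      rw [ChartIsoFamilyN.d_add, map_mul]
      rfl }

theorem jTop_apply (x : ↥(torsP N p)) :
    haveI := S.fin₀
    haveI := S.normal₀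
    jTop c0 Fam S x = Additive.ofMul (bcL c0 S.le₀ (Fam.d S S.L₀ le_rfl x)) := rfl

/-- `j` may be computed at any finite normal level `L ⊇ L₀`. -/
theorem jTop_eq_level (L : IntermediateField ℚ Qbar) [FiniteDimensional ℚ L] [Normal ℚ L]
    (hle : S.L₀ ≤ L) (x : ↥(torsP N p)) :
    jTop c0 Fam S x = Additive.ofMul (bcL c0 (S.le₀.trans hle) (Fam.d S L hle x)) := by
  haveI := S.fin₀
  haveI := S.normal₀
  rw [jTop_apply]
  have h := Fam.d_tower S S.L₀ L le_rfl hle x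
  have h2 := bcL_map c0 S.le₀ hle (Fam.d S S.L₀ le_rfl x)
  rw [← h2]
  exact congrArg (fun z => Additive.ofMul (bcL c0 (S.le₀.trans hle) z)) h

/-- `bcE ∘ toEh = bcL`. -/
theorem bcE_toEh (E : NLevel p K) (z : Fermat.Agent.T1B.ADPe93.Inst.PicL c0 E) :
    bcE c0 E (toEh c0 E z) = bcL c0 E.leL z := by
  letI := algAKL (padicPlace p) E.leL
  letI := algWE E.lev
  letI := algKE E.levL
  letI := algWKbar p K
  letI := algEKbar E.E
  letI := algLKbar p E.L
  haveI := Fermat.Agent.T1B.ADPe93.Inst.tower_W_L_Eh E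
  haveI := tower_W_E_Kbar E.lev
  haveI := tower_W_L_Kbar (p := p) E.leL
  haveI : IsScalarTower ↥E.L ↥E.E (Kbar p) := IsScalarTower.of_algebraMap_eq fun _ => rfl
  exact PicX.map_comp c0 ↥E.L ↥E.E (Kbar p) z

/-- `j` at a level `E` with `L₀ ≤ E.L`: the field `hj` of `ADPe93.Assembly.Completion`. -/
theorem jTop_eq_bcE (E : NLevel p K) (hle : S.L₀ ≤ E.L) (x : ↥(torsP N p)) :
    jTop c0 Fam S x = Additive.ofMul (bcE c0 E (toEh c0 E (Fam.d S E.L hle x))) := by
  rw [bcE_toEh]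
  exact jTop_eq_level c0 Fam S E.L hle x

/-- **`LocalGeom.j_inj`.** -/
theorem jTop_injective
    (hnt : letI := algWKbar p K; Nontrivial (Kbar p ⊗[Wb p K] B0))
    (hH0 : letI := algWKbar p K; Fermat.Agent.T1.Red68.H0Const (c0.baseChange (Kbar p))) :
    Function.Injective (jTop c0 Fam S) := by
  haveI := S.fin₀
  haveI := S.normal₀
  letI := algAKL (padicPlace p) S.le₀
  letI := algWKbar p K
  letI := algLKbar p S.L₀
  haveI := tower_W_L_Kbar (p := p) S.le₀
  haveI := hnt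
  have h1 : Function.Injective (bcL c0 S.le₀) :=
    Fermat.Agent.T1B.Bridge43.picMap_injective_of_field c0 ↥S.L₀ (Kbar p) hH0
  intro x y hxy
  exact Fam.d_injective S S.L₀ le_rfl (h1 (Additive.ofMul.injective hxy))

/-- **`LocalGeom.j_res`** (for `actA := actTop c0 hK`). -/
theorem jTop_res (hK : InertFixed (padicPlace p) K) (τ : ↥(Ip p)) (x : JZero N)
    (hx : x ∈ torsP N p) (hx' : localGaloisToGlobal p (τ : Gp p) • x ∈ torsP N p) :
    letI := actTop c0 hK
    jTop c0 Fam S ⟨_, hx'⟩ = τ • jTop c0 Fam S ⟨x, hx⟩ := by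
  haveI := S.fin₀
  haveI := S.normal₀
  exact bridge_res_L c0 hK S.le₀ τ (chartAutRefl c0) rfl rfl rfl rfl
    ((resL S.L₀ (localGaloisToGlobal p (τ : Gp p)) : ↥S.L₀ ≃ₐ[ℚ] ↥S.L₀) : ↥S.L₀ →+* ↥S.L₀)
    (fun _ => rfl) (resL_semi (padicPlace p) S.le₀ _ (res_fixes hK τ))
    (Fam.d S S.L₀ le_rfl) ⟨x, hx⟩ ⟨_, hx'⟩
    (Fam.d_galois S S.L₀ le_rfl _ (res_fixes hK τ) ⟨x, hx⟩ ⟨_, hx'⟩ rfl)

/-- **`LocalGeom.j_Pt`** (for `Pt := Objects.PtTop c0`). -/
theorem jTop_mem_PtTop [Nonempty (NLevel p K)] (x : ↥(torsP N p)) :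
    jTop c0 Fam S x ∈ PtTop c0 := by
  haveI := S.fin₀
  haveI := S.normal₀
  rw [jTop_eq_bcE c0 Fam S (level₀ S) le_rfl x]
  refine ofMul_bcE_mem_PtTop c0 (level₀ S) ?_
  letI := algAKL (padicPlace p) (level₀ (p := p) S).leL
  letI := algWE (level₀ (p := p) S).lev
  letI := algKE (level₀ (p := p) S).levL
  haveI := Fermat.Agent.T1B.ADPe93.Inst.tower_W_L_Eh (level₀ (p := p) S)
  exact (pointClasses c0).map_mem ↥(level₀ (p := p) S).L ↥(level₀ (p := p) S).E _
    (Fam.d_mem_picPt S S.L₀ le_rfl x)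

/-- **AD-CONVERSE, generic form**: if `d_{E.L} x` extends to a class `y` over `O_L = A ∩ L`
(`genL y = d x`) whose image over `O_E` lies in `P E`, then `j x ∈ unionSub c0 P hP`. -/
theorem jTop_mem_unionSub_of_alg [Nonempty (NLevel p K)]
    {P : ∀ E : NLevel p K, Subgroup (PicO c0 E)} {hP : Compatible c0 P}
    (E : NLevel p K) (hle : S.L₀ ≤ E.L) (x : ↥(torsP N p)) (y : PicOL c0 E)
    (hy : genL c0 E y = Fam.d S E.L hle x) (hyP : toOh c0 E y ∈ P E) :
    jTop c0 Fam S x ∈ unionSub c0 P hP := by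
  rw [jTop_eq_bcE c0 Fam S E hle x, ← hy, ← Fermat.Agent.T1B.ADPe93.Inst.sq, bcE_bcOE]
  exact mem_unionSub_of_mem c0 E hyP

end Fermat.Agent.T1B.Local66.Bridge
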