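/-
Programme T1B (row 38 via S44), brick `LOCAL44-ASM` (helper66), part 2: THE E-SIDE HYPOTHESIS OF
`Local66.Assembly.local44` IS DISCHARGED.

`nonempty_eSideData` : `Assembly.ESideData P` for every Frey package with `p ∣ abc`, from helper48's
`ESide48.peu_frey_global_full` (E-SIDE44 cell: helper63, helper46, helper48, helper9, helper23).

`nonEisenstein` : `Assembly.NonEisenstein`, from helper2's `NonEis2.nonEisenstein` (chapter (EC) of the
earlier team's S41 library: weak Chebotarev + irreducibility + torsion lifting).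

`local44_of_geom` : `Top68.LOCAL44 U Sp` from the remaining hypotheses
`DegeneracyOK` (×2) and `LocalGeom`.
-/
import Mathlib
import Fermat.Agent.T1B.Local66.Assembly
import Fermat.Agent.T1B.ESide48.PeuFreyGlobal
import Fermat.Agent.T1B.NonEis2.Main

set_option autoImplicit false

open Fermat.Agent.TW.B5.Iface Fermat.Agent.T1B.Top68 ModularCurve
open Fermat.Agent.T1B.Plumb66.Cyclo Fermat.Agent.T1B.Plumb66.OneUnits

noncomputable section

namespace Fermat.Agent.T1B.Local66.ESideInst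

open Fermat.Agent.T1B.Local66.Assembly

/-- **The E-side data exist** (`p ∣ abc`). -/
theorem nonempty_eSideData (P : FreyPackage) [Fact P.p.Prime]
    (hdiv : (P.p : ℤ) ∣ P.a * P.b * P.c) : Nonempty (ESideData P) := by
  classical
  obtain ⟨P₀, Q, ζ, hζ, w, c, hprim, -, hspan, hindep, hact⟩ :=
    Fermat.Agent.T1B.ESide48.peu_frey_global_full P hdiv
  have hp : P.p.Prime := Fact.out
  refine ⟨{
    P₀ := P₀
    Q := Q
    span := fun T => by
      obtain ⟨i, k, -, -, h⟩ := hspan T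
      exact ⟨i, k, h⟩
    indep := fun k hk => by
      have h1 : (1 : ℤ) • Q ∈ AddSubgroup.zmultiples P₀ := by
        rw [one_smul, hk]
        exact AddSubgroup.nsmul_mem _ (AddSubgroup.mem_zmultiples P₀) k
      have h2 := hindep 1 h1
      have h3 : P.p ∣ 1 := by exact_mod_cast h2
      exact hp.one_lt.ne' (Nat.dvd_one.mp h3)
    ζ := ζ
    hζ := hζ
    hζ1 := hprim.ne_one hp.one_lt
    w := w
    c := c
    smul_P₀ := fun τ hτ => (hact τ hτ).1
    smul_Q := fun τ hτ => (hact τ hτ).2.1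
    smul_w := fun τ hτ => (hact τ hτ).2.2 }⟩

/-- **The non-Eisenstein prime exists.** -/
theorem nonEisenstein : NonEisenstein :=
  fun P W L hL hW hirr => Fermat.Agent.T1B.NonEis2.nonEisenstein P W L hL hW hirr

universe uA uD uE uS uR

/-- **`LOCAL44` from the degeneracy maps and the local geometry** (E-side and non-Eisenstein prime
discharged). -/
theorem local44_of_geom (U : UFamily) {D : ℕ → ℕ → Type uD} [∀ p M, AddCommGroup (D p M)]
    (S : ∀ p M, AddSubgroup (D p M)) (TD : ∀ p M, Nat.Primes → Module.End ℤ (D p M))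
    (UD : ∀ p M, Module.End ℤ (D p M))
    (π₁ π₂ : ∀ (M' p : ℕ) [NeZero M'] [NeZero (M' * p)], JZero (M' * p) →+ JZero M')
    (hπ₁ : ∀ (M' p : ℕ) [NeZero M'] [NeZero (M' * p)], DegeneracyOK U (π₁ M' p))
    (hπ₂ : ∀ (M' p : ℕ) [NeZero M'] [NeZero (M' * p)], DegeneracyOK U (π₂ M' p))
    (hG : ∀ (p : ℕ) [Fact p.Prime] (m : ℕ) [NeZero (4 * m * p)] [NeZero (4 * m)], 5 ≤ p → 0 < m →
      ¬ 2 ∣ m → Squarefree m → ¬ p ∣ m →
      Nonempty (LocalGeom.{uA, uD, uE, uS, uR} p (4 * m * p) (4 * m) (π₁ (4 * m) p) (π₂ (4 * m) p)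
        (U (4 * m * p)) (S p (4 * m)) (TD p (4 * m)) (UD p (4 * m)))) :
    LOCAL44 U (fun P m W C =>
      SpOf (S P.p (4 * m)) (TD P.p (4 * m)) (UD P.p (4 * m)) P.p (Good W (4 * m * P.p))
        (fun ℓ => W.apOfModel ℓ) C) :=
  local44 U S TD UD π₁ π₂ hπ₁ hπ₂ nonEisenstein (fun P _ h => nonempty_eSideData P h) hG

end Fermat.Agent.T1B.Local66.ESideInst
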