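/-
Programme T1B (row 38 via S44), brick `LOCAL44-ASM` (helper66), part 3: THE DEGENERACY HYPOTHESES OF
`Local66.ESideInst.local44_of_geom` ARE INSTANTIATED with helper21's DEGEN-HECKE (Pic level):

* `U := Degen21.UFam.uTwo` (`= β_* α^*` at the prime `2`, the adopted `U_2`-family);
* `π₁ π₂ := Degen21.Occ.degenOne / degenTwo` (`= Degen21.Level.piOne / piTwo`, the push-forwards along
  `heckeAlphaBar / heckeBetaBar ℚ̄ M' p`, for `p` an odd prime not dividing `M'`);
* `DegeneracyOK` from `Degen21.Occ.degenOne_mem_occSub / degenTwo_mem_occSub`, modulo the four field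
  identities `Degen21.Occ.NormBCRange` (helper20, `Degen20/NormBC.lean`).

`local44_uTwo` : `NormBCRange → (∀ p m, Nonempty (LocalGeom … (piOne (4m) p) (piTwo (4m) p) (uTwo (4mp)) …))
  → LOCAL44 uTwo Sp`.
-/
import Mathlib
import Fermat.Agent.T1B.Local66.ESideInst
import Fermat.Agent.T1B.Degen21.Occ

set_option autoImplicit false

open Fermat.Agent.TW.B5.Iface Fermat.Agent.T1B.Top68 ModularCurve
open Fermat.Agent.T1B.Degen21.Occ Fermat.Agent.T1B.Degen21.Level Fermat.Agent.T1B.Degen21.UFam

noncomputable section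

namespace Fermat.Agent.T1B.Local66.DegenInst

open Fermat.Agent.T1B.Local66.Assembly Fermat.Agent.T1B.Local66.ESideInst

/-- helper21's `π₁` family satisfies `DegeneracyOK`. -/
theorem degeneracyOK_degenOne (H : NormBCRange) (M' p : ℕ) [NeZero M'] [NeZero (M' * p)] :
    DegeneracyOK uTwo (degenOne M' p) :=
  fun good a C hgood x hx => degenOne_mem_occSub H M' p p good a C hgood x hx

/-- helper21's `π₂` family satisfies `DegeneracyOK`. -/
theorem degeneracyOK_degenTwo (H : NormBCRange) (M' p : ℕ) [NeZero M'] [NeZero (M' * p)] :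
    DegeneracyOK uTwo (degenTwo M' p) :=
  fun good a C hgood x hx => degenTwo_mem_occSub H M' p p good a C hgood x hx

/-- In the range of `LOCAL44` the total families are the push-forwards. -/
theorem degenRange_of {p m : ℕ} (hp : p.Prime) (hp5 : 5 ≤ p) (hpm : ¬ p ∣ m) :
    DegenRange (4 * m) p := by
  refine ⟨hp, fun h => ?_, by omega⟩
  rcases (Nat.Prime.dvd_mul hp).1 h with h4 | hm
  · have : p ≤ 4 := Nat.le_of_dvd (by norm_num) h4
    omega
  · exact hpm hm

universe uA uD uE uS uR

/-- **`LOCAL44` for `U = uTwo` from the norm compatibilities and the local geometry**, with the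
degeneracy maps written as helper21's push-forwards `piOne`, `piTwo`. -/
theorem local44_uTwo (H : NormBCRange) {D : ℕ → ℕ → Type uD} [∀ p M, AddCommGroup (D p M)]
    (S : ∀ p M, AddSubgroup (D p M)) (TD : ∀ p M, Nat.Primes → Module.End ℤ (D p M))
    (UD : ∀ p M, Module.End ℤ (D p M))
    (hG : ∀ (p : ℕ) [Fact p.Prime] [NeZero p] (m : ℕ) [NeZero (4 * m * p)] [NeZero (4 * m)],
      5 ≤ p → 0 < m → ¬ 2 ∣ m → Squarefree m → ¬ p ∣ m →
      Nonempty (LocalGeom.{uA, uD, uE, uS, uR} p (4 * m * p) (4 * m)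
        (piOne (4 * m) p Fact.out) (piTwo (4 * m) p Fact.out)
        (uTwo (4 * m * p)) (S p (4 * m)) (TD p (4 * m)) (UD p (4 * m)))) :
    LOCAL44 uTwo (fun P m W C =>
      SpOf (S P.p (4 * m)) (TD P.p (4 * m)) (UD P.p (4 * m)) P.p (Good W (4 * m * P.p))
        (fun ℓ => W.apOfModel ℓ) C) := by
  refine local44_of_geom uTwo S TD UD (fun M' p _ _ => degenOne M' p) (fun M' p _ _ => degenTwo M' p)
    (fun M' p _ _ => degeneracyOK_degenOne H M' p) (fun M' p _ _ => degeneracyOK_degenTwo H M' p) ?_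
  intro p _ m _ _ hp5 hm hodd hsq hpm
  have hp : p.Prime := Fact.out
  have : NeZero p := ⟨hp.ne_zero⟩
  have hR : DegenRange (4 * m) p := degenRange_of hp hp5 hpm
  have h := hG p m hp5 hm hodd hsq hpm
  show Nonempty (LocalGeom p (4 * m * p) (4 * m) (degenOne (4 * m) p) (degenTwo (4 * m) p) _ _ _ _)
  rw [degenOne_eq (4 * m) p hR, degenTwo_eq (4 * m) p hR]
  exact h

end Fermat.Agent.T1B.Local66.DegenInst
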