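/-
Programme T1B (row 38 via S44), brick `LOCAL44-ASM` (helper66), part 4: **`LOCAL44 uTwo SpHol` FROM THE
LOCAL GEOMETRY ALONE.**

All the other hypotheses of `Local66.Assembly.local44` are discharged:
* E-side, non-Eisenstein prime            : `Local66/ESideInst.lean` (helper48, helper2);
* degeneracy maps, `U`-family             : `Local66/DegenInst.lean` + `Degen20.Final.normBCRange`
                                            (helper21, helper20);
* the target `(D, S, TD, UD)` and `SpHol` : `Top68/HolParams.lean` (helper68), for a family of places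
                                            `Ap p` of `ℚ̄` over `p`.

`local44_spHol` : the ONLY remaining hypothesis is, for every prime `p ≥ 5` and odd squarefree `m`
prime to `p`, `Nonempty (LocalGeom p (4mp) (4m) (piOne (4m) p) (piTwo (4m) p) (uTwo (4mp))
(holS Ap p (4m)) (holT Ap p (4m)) (holU Ap p (4m)))`.
-/
import Mathlib
import Fermat.Agent.T1B.Local66.DegenInst
import Fermat.Agent.T1B.Degen20.Final
import Fermat.Agent.T1B.Top68.HolParams

set_option autoImplicit false

open Fermat.Agent.TW.B5.Iface Fermat.Agent.T1B.Top68 ModularCurve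
open Fermat.Agent.T1B.Degen21.Occ Fermat.Agent.T1B.Degen21.Level Fermat.Agent.T1B.Degen21.UFam

noncomputable section

namespace Fermat.Agent.T1B.Local66.Main

open Fermat.Agent.T1B.Local66.Assembly Fermat.Agent.T1B.Local66.DegenInst

universe uA uE uS uR

/-- **`LOCAL44 uTwo SpHol` from the local geometry.** -/
theorem local44_spHol (Ap : ℕ → ValuationSubring (AlgebraicClosure ℚ))
    (hAp : ∀ p : ℕ, p.Prime → (Ap p).LiesOverPrime p)
    (hG : ∀ (p : ℕ) [Fact p.Prime] [NeZero p] (m : ℕ) [NeZero (4 * m * p)] [NeZero (4 * m)],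
      5 ≤ p → 0 < m → ¬ 2 ∣ m → Squarefree m → ¬ p ∣ m →
      Nonempty (LocalGeom.{uA, 0, uE, uS, uR} p (4 * m * p) (4 * m)
        (piOne (4 * m) p Fact.out) (piTwo (4 * m) p Fact.out)
        (uTwo (4 * m * p)) (holS Ap p (4 * m)) (holT Ap p (4 * m)) (holU Ap p (4 * m)))) :
    LOCAL44 uTwo SpHol := by
  have h := local44_uTwo Fermat.Agent.T1B.Degen20.Final.normBCRange
    (D := fun p M => holD Ap p M) (fun p M => holS Ap p M) (fun p M => holT Ap p M)
    (fun p M => holU Ap p M) hG
  exact local44_mono uTwo (fun P m W C _ hSp => spHol_of_exists Ap hAp P m W C hSp) h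

/-- **S44 from `EMBED44 uTwo`, `LIFT0 uTwo`, `QEXP`, `LIFTQ` and the local geometry.** -/
theorem s44_of_localGeom (Ap : ℕ → ValuationSubring (AlgebraicClosure ℚ))
    (hAp : ∀ p : ℕ, p.Prime → (Ap p).LiesOverPrime p)
    (hE : EMBED44 uTwo) (h0 : LIFT0 uTwo) (hQ : Fermat.Agent.T1B.Hol13.QEXP)
    (hL : Fermat.Agent.T1B.Hol13.LIFTQ)
    (hG : ∀ (p : ℕ) [Fact p.Prime] [NeZero p] (m : ℕ) [NeZero (4 * m * p)] [NeZero (4 * m)],
      5 ≤ p → 0 < m → ¬ 2 ∣ m → Squarefree m → ¬ p ∣ m →
      Nonempty (LocalGeom.{uA, 0, uE, uS, uR} p (4 * m * p) (4 * m)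
        (piOne (4 * m) p Fact.out) (piTwo (4 * m) p Fact.out)
        (uTwo (4 * m * p)) (holS Ap p (4 * m)) (holT Ap p (4 * m)) (holU Ap p (4 * m)))) :
    MAIN44 :=
  main44_of_props uTwo SpHol hE (local44_spHol Ap hAp hG) h0 (liftC_spHol hQ hL)

end Fermat.Agent.T1B.Local66.Main
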